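import Fermat.Agent.FeketeSzego.Rounding

/-!
# Scaled Chebyshev polynomials

`scaledCheb c s n` takes the value `w ^ n + (s / w) ^ n` at `c + w + s / w`. For rational `c` and
`s` and divisible `n` its highest coefficients are integers.
-/

set_option autoImplicit false

noncomputable section

namespace FA.FeketeSzego

open Polynomial Finset
open scoped Nat

variable {R : Type*} [CommRing R]

/-- The monic Chebyshev polynomials of centre `c` and parameter `s`. -/
def scaledCheb (c s : R) : ℕ → R[X]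
  | 0 => 2
  | 1 => X - C c
  | n + 2 => (X - C c) * scaledCheb c s (n + 1) - C s * scaledCheb c s n

theorem natDegree_scaledCheb_le (c s : R) : ∀ n, (scaledCheb c s n).natDegree ≤ n
  | 0 => by rw [scaledCheb, show (2 : R[X]) = C 2 by rfl, natDegree_C]
  | 1 => by
    rw [scaledCheb]
    exact natDegree_X_sub_C_le c
  | n + 2 => by
    rw [scaledCheb]
    refine (natDegree_sub_le _ _).trans (max_le (natDegree_mul_le.trans ?_)
      ((natDegree_C_mul_le _ _).trans ((natDegree_scaledCheb_le c s n).trans (by omega))))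
    exact (add_le_add (natDegree_X_sub_C_le c) (natDegree_scaledCheb_le c s (n + 1))).trans
      (by omega)

theorem coeff_scaledCheb_self (c s : R) : ∀ n, 0 < n → (scaledCheb c s n).coeff n = 1
  | 0 => fun h => absurd h (lt_irrefl 0)
  | 1 => fun _ => by simp [scaledCheb]
  | n + 2 => fun _ => by
    have h0 : (scaledCheb c s n).coeff (n + 2) = 0 :=
      coeff_eq_zero_of_natDegree_lt ((natDegree_scaledCheb_le c s n).trans_lt (by omega))
    have h1 : (scaledCheb c s (n + 1)).coeff (n + 2) = 0 :=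
      coeff_eq_zero_of_natDegree_lt ((natDegree_scaledCheb_le c s (n + 1)).trans_lt (by omega))
    rw [scaledCheb, coeff_sub, sub_mul, coeff_sub, coeff_X_mul, coeff_C_mul, coeff_C_mul, h0, h1,
      coeff_scaledCheb_self c s (n + 1) n.succ_pos]
    simp

theorem monic_scaledCheb (c s : R) {n : ℕ} (hn : 0 < n) : (scaledCheb c s n).Monic :=
  monic_of_natDegree_le_of_coeff_eq_one n (natDegree_scaledCheb_le c s n)
    (coeff_scaledCheb_self c s n hn)

theorem natDegree_scaledCheb [Nontrivial R] (c s : R) {n : ℕ} (hn : 0 < n) :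
    (scaledCheb c s n).natDegree = n :=
  le_antisymm (natDegree_scaledCheb_le c s n)
    (le_natDegree_of_ne_zero (by rw [coeff_scaledCheb_self c s n hn]; exact one_ne_zero))

theorem map_scaledCheb {S : Type*} [CommRing S] (f : R →+* S) (c s : R) :
    ∀ n, (scaledCheb c s n).map f = scaledCheb (f c) (f s) n
  | 0 => by simp [scaledCheb]
  | 1 => by simp [scaledCheb]
  | n + 2 => by
    simp only [scaledCheb, Polynomial.map_sub, Polynomial.map_mul, map_X, map_C,
      map_scaledCheb f c s (n + 1), map_scaledCheb f c s n]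

theorem eval_scaledCheb {F : Type*} [Field F] (c s w : F) (hw : w ≠ 0) :
    ∀ n, (scaledCheb c s n).eval (c + w + s / w) = w ^ n + (s / w) ^ n
  | 0 => by simp [scaledCheb]; norm_num
  | 1 => by simp [scaledCheb]; ring
  | n + 2 => by
    rw [scaledCheb, eval_sub, eval_mul, eval_mul, eval_sub, eval_X, eval_C, eval_C,
      eval_scaledCheb c s w hw (n + 1), eval_scaledCheb c s w hw n]
    have hv : w * (s / w) = s := mul_div_cancel₀ s hw
    generalize s / w = v at hv ⊢
    subst hv
    ring

theorem eval_scaledCheb_cos (c r t : ℝ) : ∀ n : ℕ,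
    (scaledCheb c (r ^ 2) n).eval (c + 2 * r * Real.cos t) = 2 * r ^ n * Real.cos (n * t)
  | 0 => by simp [scaledCheb]
  | 1 => by simp [scaledCheb]
  | n + 2 => by
    rw [scaledCheb, eval_sub, eval_mul, eval_mul, eval_sub, eval_X, eval_C, eval_C,
      eval_scaledCheb_cos c r t (n + 1), eval_scaledCheb_cos c r t n]
    have h1 : ((n + 1 : ℕ) : ℝ) * t = (n : ℝ) * t + t := by push_cast; ring
    have h2 : ((n + 2 : ℕ) : ℝ) * t = ((n : ℝ) * t + t) + t := by push_cast; ring
    have h3 := Real.cos_add ((n : ℝ) * t + t) t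
    have h4 := Real.cos_sub ((n : ℝ) * t + t) t
    rw [add_sub_cancel_right] at h4
    rw [h1, h2, h3]
    linear_combination (-2 * r ^ (n + 2)) * h4

theorem two_mul_X_sub_pow (c : ℂ) {s : ℂ} (hs : s ≠ 0) (M : ℕ) :
    2 * (X - C c) ^ M = ∑ l ∈ range (M + 1),
      C ((M.choose l : ℂ) * s ^ min l (M - l)) * scaledCheb c s (M - 2 * min l (M - l)) := by
  refine Polynomial.funext fun x => ?_
  obtain ⟨w, hw⟩ := IsAlgClosed.exists_root (X ^ 2 - C (x - c) * X + C s : ℂ[X]) (fun h => by
    have h' : (X ^ 2 - C (x - c) * X + C s : ℂ[X]).coeff 2 = 0 :=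
      coeff_eq_zero_of_degree_lt (h ▸ by norm_num)
    simp [coeff_X_pow] at h')
  simp only [IsRoot, eval_add, eval_sub, eval_pow, eval_X, eval_mul, eval_C] at hw
  have hw0 : w ≠ 0 := fun e => hs (by simpa [e] using hw)
  have hx : x = c + w + s / w := by
    field_simp
    linear_combination -hw
  rw [eval_finsetSum, eval_mul, eval_ofNat, eval_pow, eval_sub, eval_X, eval_C]
  simp only [eval_mul, eval_C, hx, eval_scaledCheb c s w hw0]
  rw [show c + w + s / w - c = w + s / w by ring, two_mul]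
  conv_lhs =>
    arg 2
    rw [add_comm w (s / w)]
  rw [add_pow w, add_pow (s / w), ← sum_add_distrib]
  refine sum_congr rfl fun l hl => ?_
  rw [mem_range, Nat.lt_succ_iff] at hl
  have key : ∀ a b : ℂ, ∀ j e : ℕ, (a * b) ^ j * (a ^ e + b ^ e) =
      a ^ (j + e) * b ^ j + a ^ j * b ^ (j + e) := fun a b j e => by ring
  have hsw : s = w * (s / w) := by field_simp
  conv_rhs => arg 1; arg 2; rw [hsw]
  rw [mul_assoc (M.choose l : ℂ), key]
  rcases le_total l (M - l) with h | h
  · rw [min_eq_left h, show l + (M - 2 * l) = M - l by omega]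
    ring
  · rw [min_eq_right h, show M - l + (M - 2 * (M - l)) = l by omega]
    ring

/-- Multiplying by a power of a denominator. -/
theorem pow_mul_coeff_scaledCheb_mem {c s : ℚ} {d : ℕ}
    (hc : (d : ℚ) * c ∈ (Int.castRingHom ℚ).range) (hs : (d : ℚ) * s ∈ (Int.castRingHom ℚ).range) :
    ∀ n i, (d : ℚ) ^ (n - i) * (scaledCheb c s n).coeff i ∈ (Int.castRingHom ℚ).range
  | 0, i => by
    rw [Nat.zero_sub, pow_zero, one_mul, scaledCheb, show (2 : ℚ[X]) = C 2 by rfl, coeff_C]
    split_ifs
    exacts [ofNat_mem _ 2, Subring.zero_mem _]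
  | 1, i => by
    rcases i with - | i
    · rw [scaledCheb, coeff_sub, coeff_X_zero, coeff_C_zero, zero_sub, Nat.sub_zero, pow_one,
        mul_neg]
      exact Subring.neg_mem _ hc
    · rw [scaledCheb, show 1 - (i + 1) = 0 by omega, pow_zero, one_mul, coeff_sub, coeff_X,
        coeff_C_of_ne_zero i.succ_ne_zero, sub_zero]
      split_ifs
      exacts [Subring.one_mem _, Subring.zero_mem _]
  | n + 2, i => by
    rw [scaledCheb, coeff_sub, sub_mul, coeff_sub, coeff_C_mul, coeff_C_mul, mul_sub, mul_sub]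
    refine Subring.sub_mem _ (Subring.sub_mem _ ?_ ?_) ?_
    · rcases i with - | i
      · rw [coeff_X_mul_zero, mul_zero]
        exact Subring.zero_mem _
      · rw [coeff_X_mul, show n + 2 - (i + 1) = n + 1 - i by omega]
        exact pow_mul_coeff_scaledCheb_mem hc hs (n + 1) i
    · by_cases hi : i ≤ n + 1
      · rw [show n + 2 - i = (n + 1 - i) + 1 by omega, pow_succ,
          show (d : ℚ) ^ (n + 1 - i) * d * (c * (scaledCheb c s (n + 1)).coeff i) =
            (d * c) * ((d : ℚ) ^ (n + 1 - i) * (scaledCheb c s (n + 1)).coeff i) by ring]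
        exact Subring.mul_mem _ hc (pow_mul_coeff_scaledCheb_mem hc hs (n + 1) i)
      · rw [coeff_eq_zero_of_natDegree_lt ((natDegree_scaledCheb_le c s (n + 1)).trans_lt
          (by omega)), mul_zero, mul_zero]
        exact Subring.zero_mem _
    · by_cases hi : i ≤ n
      · rw [show n + 2 - i = (n - i) + 1 + 1 by omega, pow_succ, pow_succ,
          show (d : ℚ) ^ (n - i) * d * d * (s * (scaledCheb c s n).coeff i) =
            d * (d * s) * ((d : ℚ) ^ (n - i) * (scaledCheb c s n).coeff i) by ring]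
        exact Subring.mul_mem _ (Subring.mul_mem _ (natCast_mem _ _) hs)
          (pow_mul_coeff_scaledCheb_mem hc hs n i)
      · rw [coeff_eq_zero_of_natDegree_lt ((natDegree_scaledCheb_le c s n).trans_lt
          (by omega)), mul_zero, mul_zero]
        exact Subring.zero_mem _

/-- **The highest coefficients are integers.** -/
theorem exists_top_integral_cheb {c s : ℚ} (hs0 : s ≠ 0) (k : ℕ) :
    ∃ D : ℕ, 0 < D ∧ ∀ M, D ∣ M → 2 * k < M → ∀ i, M - k ≤ i →
      (scaledCheb c s M).coeff i ∈ (Int.castRingHom ℚ).range := by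
  obtain ⟨d, hd⟩ : ∃ d : ℕ, d = 2 * c.den * s.den := ⟨_, rfl⟩
  have hc : (d : ℚ) * c ∈ (Int.castRingHom ℚ).range := by
    rw [hd, Nat.cast_mul, Nat.cast_mul, mul_right_comm, mul_assoc _ (c.den : ℚ), Rat.den_mul_eq_num]
    exact Subring.mul_mem _ (Subring.mul_mem _ (natCast_mem _ _) (intCast_mem _ _))
      (natCast_mem _ _)
  have hs : (d : ℚ) * s ∈ (Int.castRingHom ℚ).range := by
    rw [hd, Nat.cast_mul, mul_assoc, Rat.den_mul_eq_num]
    exact Subring.mul_mem _ (natCast_mem _ _) (intCast_mem _ _)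
  refine ⟨(k + 1)! * d ^ (k + 1), by rw [hd]; positivity, fun M hM hkM i hi => ?_⟩
  have hid : (2 : ℚ[X]) * (X - C c) ^ M = ∑ l ∈ range (M + 1),
      C ((M.choose l : ℚ) * s ^ min l (M - l)) * scaledCheb c s (M - 2 * min l (M - l)) := by
    apply Polynomial.map_injective (algebraMap ℚ ℂ) (algebraMap ℚ ℂ).injective
    rw [Polynomial.map_sum]
    simp only [Polynomial.map_mul, Polynomial.map_pow, Polynomial.map_ofNat, Polynomial.map_sub,
      map_X, map_C, map_scaledCheb]
    rw [two_mul_X_sub_pow _ ((map_ne_zero (algebraMap ℚ ℂ)).2 hs0) M]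
    refine sum_congr rfl fun l _ => ?_
    rw [map_mul (algebraMap ℚ ℂ), map_natCast, map_pow]
  have h := congrArg (fun p => coeff p i) hid
  simp only [show (2 : ℚ[X]) = C 2 by rfl, coeff_C_mul, finsetSum_coeff] at h
  rw [sum_range_succ, sum_range_eq_add_Ico _ (show 0 < M by omega)] at h
  simp only [Nat.sub_zero, Nat.zero_min, Nat.min_zero, Nat.sub_self, mul_zero,
    pow_zero, mul_one, Nat.choose_zero_right, Nat.choose_self, Nat.cast_one, one_mul] at h
  have e : (scaledCheb c s M).coeff i = ((X - C c) ^ M).coeff i -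
      (∑ l ∈ Ico 1 M, (M.choose l : ℚ) * s ^ min l (M - l) *
        (scaledCheb c s (M - 2 * min l (M - l))).coeff i) / 2 := by linarith
  rw [e, sum_div]
  refine Subring.sub_mem _ ?_ (Subring.sum_mem _ fun l hl => ?_)
  · by_cases hiM : i ≤ M
    · rw [sub_eq_add_neg, ← C_neg, coeff_X_add_C_pow]
      rcases Nat.eq_zero_or_pos (M - i) with h0 | h0
      · rw [h0, pow_zero, one_mul]
        exact natCast_mem _ _
      obtain ⟨t, ht⟩ := pow_dvd_choose hM h0 (by omega)
      obtain ⟨u, hu⟩ := Nat.exists_eq_add_of_le (show M - i ≤ k + 1 by omega)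
      rw [← Nat.choose_symm hiM, ht, hu, Nat.cast_mul, Nat.cast_pow, pow_add,
        show (-c) ^ (M - i) * ((d : ℚ) ^ (M - i) * (d : ℚ) ^ u * t) =
          (-((d : ℚ) * c)) ^ (M - i) * (d : ℚ) ^ u * t by
            rw [neg_mul_eq_mul_neg, mul_pow]; ring]
      exact Subring.mul_mem _ (Subring.mul_mem _ (Subring.pow_mem _ (Subring.neg_mem _ hc) _)
        (Subring.pow_mem _ (natCast_mem _ _) _)) (natCast_mem _ _)
    · rw [coeff_eq_zero_of_natDegree_lt, ]
      · exact Subring.zero_mem _
      · rw [natDegree_pow, natDegree_X_sub_C, mul_one]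
        omega
  rw [mem_Ico] at hl
  obtain ⟨j, hj⟩ : ∃ j, j = min l (M - l) := ⟨_, rfl⟩
  rw [← hj]
  have hj1 : 1 ≤ j := by rw [hj]; exact le_min hl.1 (by omega)
  by_cases hsmall : i ≤ M - 2 * j
  · have hchoose : M.choose l = M.choose j := by
      rcases le_total l (M - l) with h' | h'
      · rw [hj, min_eq_left h']
      · rw [hj, min_eq_right h', Nat.choose_symm hl.2.le]
    have hjk : j ≤ k + 1 := by omega
    obtain ⟨t, ht⟩ := pow_dvd_choose hM hj1 hjk
    obtain ⟨u, hu⟩ := Nat.exists_eq_add_of_le (show j + (M - 2 * j - i) + 1 ≤ k + 1 by omega)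
    rw [hchoose, ht, hu, Nat.cast_mul, Nat.cast_pow, pow_add, pow_add, pow_add, pow_one]
    have e2 : (d : ℚ) ^ j * (d : ℚ) ^ (M - 2 * j - i) * d * (d : ℚ) ^ u * t * s ^ j *
        (scaledCheb c s (M - 2 * j)).coeff i / 2 =
        ((d : ℚ) * s) ^ j * ((d : ℚ) ^ (M - 2 * j - i) * (scaledCheb c s (M - 2 * j)).coeff i) *
          (((c.den * s.den : ℕ) : ℚ) * (d : ℚ) ^ u * t) := by
      have hd' : (d : ℚ) = 2 * ((c.den * s.den : ℕ) : ℚ) := by rw [hd]; push_cast; ring
      rw [mul_pow]
      generalize ((c.den * s.den : ℕ) : ℚ) = f at hd' ⊢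
      generalize (d : ℚ) ^ (M - 2 * j - i) = A
      generalize (d : ℚ) ^ j = B
      generalize (d : ℚ) ^ u = E
      rw [hd']
      ring
    rw [e2]
    exact Subring.mul_mem _ (Subring.mul_mem _ (Subring.pow_mem _ hs _)
      (pow_mul_coeff_scaledCheb_mem hc hs _ _)) (Subring.mul_mem _ (Subring.mul_mem _
        (natCast_mem _ _) (Subring.pow_mem _ (natCast_mem _ _) _)) (natCast_mem _ _))
  · rw [coeff_eq_zero_of_natDegree_lt ((natDegree_scaledCheb_le c s _).trans_lt (by omega)),
      mul_zero, zero_div]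
    exact Subring.zero_mem _

end FA.FeketeSzego
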