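import Fermat.Agent.FeketeSzego.Points

/-!
# Rational lemniscates around a compact set

The hull less the set is open, by pushing a pole. If every monic polynomial somewhere on the
symmetric compact set `K` has modulus at least one, then every neighbourhood of `K`, together with
the hull, contains a lemniscate `|q| ≤ R` of a monic rational polynomial with `R ≥ 8` and
`|q| ≤ R / 4` on `K`.
-/

set_option autoImplicit false

noncomputable section

namespace FA.FeketeSzego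

open Polynomial Finset Filter
open scoped ComplexConjugate Topology

variable {K U : Set ℂ}

/-- A point off the hull: `1 / (x - w)` is a limit of polynomials on `K`. -/
theorem exists_approx_inverse {w : ℂ} (hne : K.Nonempty) (hw : ¬InHull K w) {ε : ℝ}
    (hε : 0 < ε) : ∃ G : ℂ[X], ∀ x ∈ K, ‖(x - w) * G.eval x - 1‖ ≤ ε := by
  obtain ⟨p, hp, hlt⟩ := exists_separating hne hw
  have hpw : p.eval w ≠ 0 := norm_pos_iff.1 (one_pos.trans hlt)
  obtain ⟨P, hP⟩ : ∃ P, P = C (p.eval w)⁻¹ * p := ⟨_, rfl⟩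
  obtain ⟨h, hh⟩ : X - C w ∣ 1 - P := by
    rw [dvd_iff_isRoot, IsRoot, hP]
    simp [hpw]
  obtain ⟨N, hN⟩ := exists_pow_lt_of_lt_one hε (inv_lt_one_of_one_lt₀ hlt)
  refine ⟨h * ∑ k ∈ range N, P ^ k, fun x hx => ?_⟩
  have e : (X - C w) * (h * ∑ k ∈ range N, P ^ k) = 1 - P ^ N := by
    rw [← mul_assoc, ← hh, mul_neg_geom_sum]
  have e' := congrArg (eval x) e
  simp only [eval_mul, eval_sub, eval_X, eval_C, eval_one] at e'
  rw [eval_mul, e', sub_sub_cancel_left, norm_neg, eval_pow, norm_pow, hP, eval_mul, eval_C,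
    norm_mul, norm_inv]
  refine (pow_le_pow_left₀ (by positivity) ?_ N).trans hN.le
  exact mul_le_of_le_one_right (by positivity) (hp x hx)

/-- Off the set, the hull is a neighbourhood of each of its points. -/
theorem inHull_of_near (hne : K.Nonempty) {z w : ℂ} (hz : InHull K z) {δ : ℝ}
    (hd : ∀ x ∈ K, δ ≤ ‖x - z‖) (hw : ‖z - w‖ < δ / 4) : InHull K w := by
  by_contra hout
  obtain ⟨G, hG⟩ := exists_approx_inverse hne hout (ε := 1 / 24) (by norm_num)
  obtain ⟨P, hP⟩ : ∃ P, P = C (z - w) * G := ⟨_, rfl⟩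
  obtain ⟨N, hN⟩ := exists_pow_lt_of_lt_one (show (0 : ℝ) < 1 / 8 by norm_num)
    (show (1 / 2 : ℝ) < 1 by norm_num)
  obtain ⟨Q, hQ⟩ : ∃ Q, Q = 1 - (X - C z) * (G * ∑ k ∈ range N, P ^ k) := ⟨_, rfl⟩
  have hsmall : ∀ x ∈ K, ‖Q.eval x‖ ≤ 1 / 2 := fun x hx => by
    have hxw : 3 * δ / 4 ≤ ‖x - w‖ := by
      have h := norm_sub_le_norm_sub_add_norm_sub x w z
      rw [norm_sub_rev w z] at h
      linarith [hd x hx]
    have hPb : ‖P.eval x‖ ≤ 1 / 2 := by
      have h1 : ‖(x - w) * G.eval x‖ ≤ 25 / 24 := by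
        refine (norm_le_norm_sub_add _ (1 : ℂ)).trans ?_
        rw [norm_one]
        linarith [hG x hx]
      rw [norm_mul] at h1
      rw [hP, eval_mul, eval_C, norm_mul]
      nlinarith [norm_nonneg (G.eval x), norm_nonneg (z - w)]
    have hS : ‖(∑ k ∈ range N, P ^ k).eval x‖ ≤ 2 := by
      rw [eval_finsetSum]
      simp only [eval_pow]
      refine (norm_sum_le _ _).trans ((sum_le_sum fun k _ => ?_).trans (sum_geometric_two_le N))
      rw [norm_pow]
      exact pow_le_pow_left₀ (norm_nonneg _) hPb k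
    have e : Q.eval x = -(((x - w) * G.eval x - 1) * (∑ k ∈ range N, P ^ k).eval x) +
        (P.eval x) ^ N := by
      have g := mul_neg_geom_sum (P.eval x) N
      rw [hQ]
      simp only [eval_sub, eval_one, eval_mul, eval_X, eval_C, eval_finsetSum, eval_pow]
      have hPe : P.eval x = (z - w) * G.eval x := by simp [hP]
      linear_combination (-(∑ k ∈ range N, P.eval x ^ k)) * hPe - g
    rw [e]
    refine (norm_add_le _ _).trans ?_
    rw [norm_neg, norm_mul, norm_pow]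
    have h2 : ‖(x - w) * G.eval x - 1‖ * ‖(∑ k ∈ range N, P ^ k).eval x‖ ≤ 1 / 24 * 2 :=
      mul_le_mul (hG x hx) hS (norm_nonneg _) (by norm_num)
    linarith [pow_le_pow_left₀ (norm_nonneg _) hPb N, hN]
  have h := hz Q _ hsmall
  rw [hQ] at h
  simp at h
  linarith

theorem isOpen_union_hull (hK : IsCompact K) (hne : K.Nonempty) (hU : IsOpen U) (hKU : K ⊆ U) :
    IsOpen (U ∪ {z | InHull K z}) := by
  rw [isOpen_iff_mem_nhds]
  rintro z (hz | hz)
  · exact mem_of_superset (hU.mem_nhds hz) Set.subset_union_left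
  by_cases hzK : z ∈ K
  · exact mem_of_superset (hU.mem_nhds (hKU hzK)) Set.subset_union_left
  have hd : 0 < Metric.infDist z K := (hK.isClosed.notMem_iff_infDist_pos hne).1 hzK
  refine mem_of_superset (Metric.ball_mem_nhds z (show 0 < Metric.infDist z K / 4 by linarith))
    fun w hw => Or.inr (inHull_of_near hne hz (δ := Metric.infDist z K) (fun x hx => ?_) ?_)
  · rw [norm_sub_rev, ← dist_eq_norm]
    exact Metric.infDist_le_dist_of_mem hx
  · rwa [Metric.mem_ball, dist_comm, dist_eq_norm] at hw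

/-- A monic polynomial much larger off `U` and the hull than on `K`. -/
theorem exists_dominating (hK : IsCompact K) (hbig : BigOn K) (hU : IsOpen U) (hKU : K ⊆ U) :
    ∃ w : ℂ[X], w.Monic ∧ 0 < w.natDegree ∧ ∃ B : ℝ, 1 ≤ B ∧ (∀ z ∈ K, ‖w.eval z‖ ≤ B) ∧
      ∀ z, z ∉ U → ¬InHull K z → 4 * B < ‖w.eval z‖ := by
  classical
  have hne := hbig.nonempty
  obtain ⟨r₀, hr₀⟩ := hK.isBounded.exists_norm_le
  obtain ⟨r, hr, hrK⟩ : ∃ r : ℝ, 1 ≤ r ∧ ∀ x ∈ K, ‖x‖ ≤ r :=
    ⟨max r₀ 1, le_max_right _ _, fun x hx => (hr₀ x hx).trans (le_max_left _ _)⟩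
  obtain ⟨R₀, hR₀⟩ : ∃ R₀ : ℝ, R₀ = 9 * r + 8 := ⟨_, rfl⟩
  obtain ⟨L, hL⟩ : ∃ L : Set ℂ, L = Metric.closedBall 0 R₀ \ (U ∪ {z | InHull K z}) := ⟨_, rfl⟩
  have hLc : IsCompact L := hL ▸ (isCompact_closedBall _ _).diff (isOpen_union_hull hK hne hU hKU)
  have hLhull : ∀ z ∈ L, ¬InHull K z := fun z hz h => (hL ▸ hz).2 (Or.inr h)
  obtain ⟨d, hd, θ, hθ, hsep⟩ := exists_uniform_separating hne hLc hLhull
  obtain ⟨δ, hδ, hδL⟩ : ∃ δ : ℝ, 0 < δ ∧ ∀ z ∈ L, ∀ x ∈ K, δ ≤ ‖z - x‖ := by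
    obtain ⟨δ, hδ, h⟩ := (hLc.prod hK).exists_forall_le' (f := fun q : ℂ × ℂ => ‖q.1 - q.2‖)
      (by fun_prop) (a := (0 : ℝ)) fun q hq => norm_pos_iff.2 (sub_ne_zero.2 fun e =>
        hLhull _ hq.1 (e ▸ inHull_of_mem hq.2))
    exact ⟨δ, hδ, fun z hz x hx => h (z, x) ⟨hz, hx⟩⟩
  -- the exponent
  have hθ0 : (0 : ℝ) < θ := by linarith
  have hlim : Tendsto (fun l : ℕ => ((l * d + 1 : ℕ) : ℝ) * θ⁻¹ ^ l) atTop (𝓝 0) := by
    have h1 := (tendsto_self_mul_const_pow_of_lt_one (inv_nonneg.2 hθ0.le)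
      (inv_lt_one_of_one_lt₀ hθ)).const_mul (d : ℝ)
    have h2 := h1.add (tendsto_pow_atTop_nhds_zero_of_lt_one (inv_nonneg.2 hθ0.le)
      (inv_lt_one_of_one_lt₀ hθ))
    simp only [mul_zero, add_zero] at h2
    refine h2.congr fun l => ?_
    push_cast
    ring
  obtain ⟨l, hl⟩ := (hlim.eventually_lt_const (show 0 < δ / (9 * r) by positivity)).exists
  obtain ⟨x, hxK, hxinj, hxmax⟩ := exists_fekete_points hK hbig.infinite (l * d)
  obtain ⟨A, hA⟩ : ∃ A : Fin (l * d + 1) → ℝ,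
      A = fun j => ∏ i ∈ univ.erase j, ‖x j - x i‖ := ⟨_, rfl⟩
  obtain ⟨j₀, -, hj₀⟩ := exists_min_image univ A univ_nonempty
  have hA0 : ∀ j, 0 ≤ A j := fun j => hA ▸ prod_nonneg fun i _ => norm_nonneg _
  obtain ⟨w, hw⟩ : ∃ w : ℂ[X], w = ∏ i, (X - C (x i)) := ⟨_, rfl⟩
  have heval : ∀ z j, ‖w.eval z‖ = ‖z - x j‖ * ∏ i ∈ univ.erase j, ‖z - x i‖ := fun z j => by
    rw [hw, eval_prod, norm_prod, ← mul_prod_erase univ _ (mem_univ j)]
    simp
  have hA1 : ∀ j, 1 ≤ A j := fun j => by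
    rcases (univ.erase j).eq_empty_or_nonempty with he | he
    · simp [hA, he]
    obtain ⟨z, hz, h1⟩ := hbig (∏ i ∈ univ.erase j, (X - C (x i)))
      (monic_prod_of_monic _ _ fun i _ => monic_X_sub_C _) (by
        rw [natDegree_prod _ _ fun i _ => X_sub_C_ne_zero _]
        simpa using he.card_pos)
    rw [eval_prod, norm_prod] at h1
    simp only [eval_sub, eval_X, eval_C] at h1
    exact h1.trans (hA ▸ hxmax j z hz)
  have hdiam : ∀ a ∈ K, ∀ b ∈ K, ‖a - b‖ ≤ 2 * r := fun a ha b hb =>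
    (norm_sub_le a b).trans (by linarith [hrK a ha, hrK b hb])
  have hAr : A j₀ ≤ (2 * r) ^ (l * d) := by
    simp only [hA]
    refine (prod_le_prod (fun i _ => norm_nonneg _) fun i _ =>
      hdiam _ (hxK j₀) _ (hxK i)).trans (le_of_eq ?_)
    simp
  refine ⟨w, hw ▸ monic_prod_of_monic _ _ fun i _ => monic_X_sub_C _, ?_,
    max 1 (2 * r * A j₀), le_max_left _ _, fun z hz => ?_, fun z hzU hzh => ?_⟩
  · rw [hw, natDegree_prod _ _ fun i _ => X_sub_C_ne_zero _]
    simp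
  · refine le_trans ?_ (le_max_right _ _)
    rw [heval z j₀]
    exact mul_le_mul (hdiam z hz _ (hxK j₀)) (hA ▸ hxmax j₀ z hz)
      (prod_nonneg fun i _ => norm_nonneg _) (by linarith)
  rw [mul_max_of_nonneg _ _ (by norm_num : (0 : ℝ) ≤ 4), max_lt_iff, mul_one]
  by_cases hnear : ‖z‖ ≤ R₀
  · have hzL : z ∈ L := hL ▸ ⟨by simpa using hnear,
      by rintro (h | h) <;> [exact hzU h; exact hzh h]⟩
    obtain ⟨p, hpd, hpK, hpz⟩ := hsep z hzL
    obtain ⟨j, hj⟩ := exists_large_basis hxinj hxK (p := p ^ l)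
      (natDegree_pow_le.trans (Nat.mul_le_mul_left l hpd))
      (fun v hv => by rw [eval_pow, norm_pow]; exact pow_le_one₀ (norm_nonneg _) (hpK v hv)) z
    rw [eval_pow, norm_pow] at hj
    have hc : ((l * d + 1 : ℕ) : ℝ) * (9 * r) < δ * θ ^ l := by
      rw [inv_pow, lt_div_iff₀ (by positivity), mul_right_comm, mul_inv_lt_iff₀ (by positivity)]
        at hl
      exact hl
    have hchain : A j * (9 * r) ≤ ‖w.eval z‖ := by
      refine le_of_mul_le_mul_left ?_ (show (0 : ℝ) < (l * d + 1 : ℕ) by positivity)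
      calc ((l * d + 1 : ℕ) : ℝ) * (A j * (9 * r)) = A j * (((l * d + 1 : ℕ) : ℝ) * (9 * r)) := by
            ring
        _ ≤ A j * (δ * θ ^ l) := mul_le_mul_of_nonneg_left hc.le (hA0 j)
        _ ≤ A j * (δ * ‖p.eval z‖ ^ l) := by gcongr; exact hA0 j
        _ = δ * (A j * ‖p.eval z‖ ^ l) := by ring
        _ ≤ δ * ((l * d + 1 : ℕ) * ∏ i ∈ univ.erase j, ‖z - x i‖) :=
            mul_le_mul_of_nonneg_left (hA ▸ hj) hδ.le
        _ ≤ _ := by
            rw [heval z j, mul_left_comm]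
            exact mul_le_mul_of_nonneg_left (mul_le_mul_of_nonneg_right
              (hδL z hzL _ (hxK j)) (prod_nonneg fun i _ => norm_nonneg _)) (by positivity)
    have h1 := hA1 j
    have h2 := hj₀ j (mem_univ j)
    constructor <;> nlinarith [hA0 j₀]
  · rw [not_le] at hnear
    have hfac : ∀ i, 8 * r + 8 ≤ ‖z - x i‖ := fun i => by
      linarith [norm_sub_norm_le z (x i), hrK _ (hxK i)]
    have hbig' : (8 * r + 8) ^ (l * d + 1) ≤ ‖w.eval z‖ := by
      rw [hw, eval_prod, norm_prod]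
      simp only [eval_sub, eval_X, eval_C]
      refine le_trans (le_of_eq (by simp)) (prod_le_prod (fun i _ => by linarith) fun i _ => hfac i)
    constructor
    · have h := le_self_pow₀ (show 1 ≤ 8 * r + 8 by linarith) (show l * d + 1 ≠ 0 by omega)
      linarith
    · refine lt_of_lt_of_le ?_ hbig'
      calc 4 * (2 * r * A j₀) ≤ 4 * (2 * r) ^ (l * d + 1) := by
            rw [pow_succ']
            gcongr
        _ ≤ 4 ^ (l * d + 1) * (2 * r) ^ (l * d + 1) := by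
            gcongr
            exact le_self_pow₀ (by norm_num) (by omega)
        _ = (8 * r) ^ (l * d + 1) := by rw [← mul_pow]; ring_nf
        _ < _ := pow_lt_pow_left₀ (by linarith) (by positivity) (by omega)

/-- The polynomial with real coefficients made of a polynomial and its conjugate. -/
theorem exists_real_square (w : ℂ[X]) (hw : w.Monic) :
    ∃ q : ℝ[X], q.Monic ∧ q.natDegree = w.natDegree + w.natDegree ∧
      ∀ z : ℂ, ‖aeval z q‖ = ‖w.eval z‖ * ‖w.eval (conj z)‖ := by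
  obtain ⟨f, hf⟩ : ∃ f, f = w * w.map (starRingEnd ℂ) := ⟨_, rfl⟩
  have hfix : f.map (starRingEnd ℂ) = f := by
    rw [hf, Polynomial.map_mul, Polynomial.map_map, mul_comm,
      show (starRingEnd ℂ).comp (starRingEnd ℂ) = RingHom.id ℂ from
        RingHom.ext fun x => Complex.conj_conj x, Polynomial.map_id]
  have hlift : f ∈ lifts (algebraMap ℝ ℂ) := by
    rw [lifts_iff_coeff_lifts]
    intro i
    have h := congrArg (fun g => coeff g i) hfix
    simp only [coeff_map] at h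
    exact ⟨(f.coeff i).re, Complex.conj_eq_iff_re.1 h⟩
  have hfm : f.Monic := hf ▸ hw.mul (hw.map _)
  obtain ⟨q, hq, hqd, hqm⟩ := lifts_and_degree_eq_and_monic hlift hfm
  refine ⟨q, hqm, ?_, fun z => ?_⟩
  · rw [← hqm.natDegree_map (algebraMap ℝ ℂ), hq, hf, hw.natDegree_mul (hw.map _),
      hw.natDegree_map]
  · rw [aeval_def, ← eval_map, hq, hf, eval_mul, norm_mul, norm_eval_map_conj]

/-- Powers of `z` below the degree are dominated by a monic polynomial. -/
theorem exists_pow_le_one_add {m : ℕ} {q : ℂ[X]} (hq : q.Monic) (hm : q.natDegree = m) :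
    ∃ C : ℝ, 1 ≤ C ∧ ∀ z : ℂ, ∀ i < m, ‖z‖ ^ i ≤ C * (1 + ‖q.eval z‖) := by
  obtain ⟨S, hS⟩ : ∃ S : ℝ, S = ∑ i ∈ range m, ‖q.coeff i‖ := ⟨_, rfl⟩
  have hS0 : 0 ≤ S := hS ▸ sum_nonneg fun i _ => norm_nonneg _
  refine ⟨(2 * S + 1) ^ m + 2, by linarith [pow_nonneg (by linarith : 0 ≤ 2 * S + 1) m],
    fun z i hi => ?_⟩
  have hq0 := norm_nonneg (q.eval z)
  have hpow : 0 ≤ (2 * S + 1) ^ m := pow_nonneg (by linarith) _
  rcases le_or_gt ‖z‖ (2 * S + 1) with h | h
  · have h1 : ‖z‖ ^ i ≤ (2 * S + 1) ^ m := (pow_le_pow_left₀ (norm_nonneg _) h i).trans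
      (pow_le_pow_right₀ (by linarith) hi.le)
    nlinarith
  · have hz1 : 1 ≤ ‖z‖ := by linarith
    have hlead : ‖z‖ ^ m ≤ ‖q.eval z‖ + S * ‖z‖ ^ (m - 1) := by
      have e : q.eval z = z ^ m + ∑ i ∈ range m, q.coeff i * z ^ i := by
        rw [eval_eq_sum_range, hm, sum_range_succ, ← hm, hq.coeff_natDegree, one_mul, add_comm]
      have h2 : ‖∑ i ∈ range m, q.coeff i * z ^ i‖ ≤ S * ‖z‖ ^ (m - 1) := by
        rw [hS, sum_mul]
        refine (norm_sum_le _ _).trans (sum_le_sum fun j hj => ?_)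
        rw [norm_mul, norm_pow]
        exact mul_le_mul_of_nonneg_left (pow_le_pow_right₀ hz1
          (Nat.le_pred_of_lt (mem_range.1 hj))) (norm_nonneg _)
      have h3 := norm_sub_le (q.eval z) (∑ i ∈ range m, q.coeff i * z ^ i)
      rw [show q.eval z - ∑ i ∈ range m, q.coeff i * z ^ i = z ^ m by rw [e]; ring, norm_pow] at h3
      linarith
    have h4 : ‖z‖ ^ m = ‖z‖ * ‖z‖ ^ (m - 1) := by
      rw [← pow_succ', Nat.sub_add_cancel (by omega)]
    have h5 : ‖z‖ ^ i ≤ ‖z‖ ^ m := pow_le_pow_right₀ hz1 hi.le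
    have h6 := mul_le_mul_of_nonneg_right h.le (pow_nonneg (norm_nonneg z) (m - 1))
    have h7 : ‖z‖ ^ m ≤ 2 * ‖q.eval z‖ := by nlinarith [pow_nonneg (norm_nonneg z) (m - 1)]
    have h8 := mul_le_mul_of_nonneg_right
      (show (2 : ℝ) ≤ (2 * S + 1) ^ m + 2 by linarith) hq0
    linarith

/-- Rational coefficients change the value by little. -/
theorem exists_rat_near {q : ℝ[X]} (hq : q.Monic) {η : ℝ} (hη : 0 < η) :
    ∃ p : ℚ[X], p.Monic ∧ p.natDegree = q.natDegree ∧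
      ∀ z : ℂ, ‖aeval z p - aeval z q‖ ≤ η * (1 + ‖aeval z q‖) := by
  obtain ⟨m, hm⟩ : ∃ m, m = q.natDegree := ⟨_, rfl⟩
  have hmap : ∀ z : ℂ, aeval z q = (q.map (algebraMap ℝ ℂ)).eval z := fun z => by
    rw [eval_map, aeval_def]
  obtain ⟨C₀, hC, hb⟩ := exists_pow_le_one_add (hq.map (algebraMap ℝ ℂ))
    ((hq.natDegree_map _).trans hm.symm)
  have hr : ∀ i, ∃ c : ℚ, |(c : ℝ) - q.coeff i| ≤ η / ((m + 1) * C₀) := fun i => by
    obtain ⟨c, h1, h2⟩ := exists_rat_btwn (show q.coeff i - η / ((m + 1) * C₀) < q.coeff i by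
      rw [sub_lt_self_iff]; positivity)
    exact ⟨c, abs_le.2 ⟨by linarith, by linarith [show 0 ≤ η / ((m + 1) * C₀) by positivity]⟩⟩
  choose c hc using hr
  obtain ⟨p, hp⟩ : ∃ p : ℚ[X], p = X ^ m + ∑ i ∈ range m, C (c i) * X ^ i := ⟨_, rfl⟩
  have hlow : (∑ i ∈ range m, C (c i) * X ^ i).degree < (m : WithBot ℕ) := by
    rw [← Fin.sum_univ_eq_sum_range (fun i => C (c i) * X ^ i)]
    exact degree_sum_fin_lt _
  refine ⟨p, hp ▸ monic_X_pow_add hlow, ?_, fun z => ?_⟩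
  · rw [hp, natDegree_add_eq_left_of_degree_lt (by rwa [degree_X_pow]), natDegree_X_pow, hm]
  have e : aeval z p - aeval z q = ∑ i ∈ range m, (((c i : ℝ) - q.coeff i : ℝ) : ℂ) * z ^ i := by
    rw [hp, aeval_eq_sum_range (p := q), sum_range_succ, ← hm]
    conv_lhs => rw [hm, hq.coeff_natDegree, ← hm]
    simp only [map_add, map_pow, aeval_X, map_sum, map_mul, aeval_C,
      Algebra.smul_def, Complex.coe_algebraMap, eq_ratCast, Complex.ofReal_sub,
      Complex.ofReal_ratCast, map_one, sub_mul, sum_sub_distrib]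
    ring
  rw [e]
  refine (norm_sum_le _ _).trans ((sum_le_card_nsmul _ _
    (η / (m + 1) * (1 + ‖aeval z q‖)) fun i hi => ?_).trans ?_)
  · rw [norm_mul, Complex.norm_real, Real.norm_eq_abs, norm_pow]
    refine (mul_le_mul (hc i) (hb z i (mem_range.1 hi)) (pow_nonneg (norm_nonneg _) _)
      (by positivity)).trans (le_of_eq ?_)
    rw [hmap]
    field_simp
  · rw [card_range, nsmul_eq_mul, ← mul_assoc]
    refine mul_le_mul_of_nonneg_right ?_ (by positivity)
    rw [← mul_div_assoc, div_le_iff₀ (by positivity)]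
    nlinarith

/-- **A rational lemniscate.** -/
theorem exists_lemniscate (hK : IsCompact K) (hsymm : ∀ z ∈ K, conj z ∈ K) (hbig : BigOn K)
    (hU : IsOpen U) (hKU : K ⊆ U) :
    ∃ q : ℚ[X], q.Monic ∧ 0 < q.natDegree ∧ ∃ R : ℝ, 8 ≤ R ∧
      (∀ z ∈ K, ‖aeval z q‖ ≤ R / 4) ∧
      ∀ z : ℂ, ‖aeval z q‖ ≤ R → z ∈ U ∨ InHull K z := by
  obtain ⟨w, hw, hwd, B, hB, hBK, hout⟩ := exists_dominating hK hbig
    (hU.inter (hU.preimage Complex.continuous_conj))
    (fun z hz => ⟨hKU hz, hKU (hsymm z hz)⟩)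
  obtain ⟨q₀, hq₀, hd₀, hnorm⟩ := exists_real_square w hw
  obtain ⟨q, hq, hd, hnear⟩ := exists_rat_near hq₀ (η := 1 / 8) (by norm_num)
  have hBB : 1 ≤ B * B := one_le_mul_of_one_le_of_one_le hB hB
  refine ⟨q, hq, by omega, 8 * (B * B), by linarith, fun z hz => ?_, fun z hz => ?_⟩
  · have h1 : ‖aeval z q₀‖ ≤ B * B := by
      rw [hnorm]
      exact mul_le_mul (hBK z hz) (hBK _ (hsymm z hz)) (norm_nonneg _) (by linarith)
    linarith [norm_le_norm_sub_add (aeval z q) (aeval z q₀), hnear z]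
  · by_contra hcon
    push Not at hcon
    have h1 : 4 * B < ‖w.eval z‖ := hout z (fun h => hcon.1 h.1) hcon.2
    have h2 : 4 * B < ‖w.eval (conj z)‖ := by
      refine hout _ (fun h => hcon.1 ?_) fun h => hcon.2 ?_
      · simpa using h.2
      · simpa using inHull_conj hsymm h
    have h3 : 16 * (B * B) ≤ ‖aeval z q₀‖ := by
      rw [hnorm]
      nlinarith
    have h4 := hnear z
    linarith [norm_le_norm_sub_add (aeval z q₀) (aeval z q), norm_sub_rev (aeval z q₀) (aeval z q)]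

end FA.FeketeSzego
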