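import Mathlib

/-!
# Integral polynomials near powers of rational polynomials

For a divisible exponent `M` the highest coefficients of `q ^ M` are integers; the others are
rounded in a basis of monic polynomials of every degree.
-/

set_option autoImplicit false

noncomputable section

namespace FA.FeketeSzego

open Polynomial Finset
open scoped Nat

/-- The binomial coefficients absorb the denominators. -/
theorem pow_dvd_choose {d k M l : ℕ} (hM : k ! * d ^ k ∣ M) (hl : 1 ≤ l) (hlk : l ≤ k) :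
    d ^ k ∣ M.choose l := by
  obtain ⟨e, rfl⟩ := hM
  rcases Nat.eq_zero_or_pos (k ! * d ^ k * e) with h0 | h0
  · rw [h0, Nat.choose_eq_zero_of_lt hl]
    exact dvd_zero _
  obtain ⟨t, ht⟩ := Nat.dvd_factorial hl hlk
  obtain ⟨p, hp⟩ := Nat.exists_eq_add_of_le' h0
  obtain ⟨l', rfl⟩ := Nat.exists_eq_add_of_le' hl
  refine ⟨t * e * p.choose l', Nat.eq_of_mul_eq_mul_right (show 0 < l' + 1 by omega) ?_⟩
  rw [hp, ← Nat.add_one_mul_choose_eq, ← Nat.succ_eq_add_one p, Nat.succ_eq_add_one, ← hp, ht]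
  ring

/-- Clearing denominators of a rational polynomial. -/
theorem exists_clear_den (h : ℚ[X]) :
    ∃ d : ℕ, 0 < d ∧ ∀ i, (d : ℚ) * h.coeff i ∈ (Int.castRingHom ℚ).range := by
  refine ⟨∏ i ∈ h.support, (h.coeff i).den, prod_pos fun i _ => (h.coeff i).den_pos, fun i => ?_⟩
  by_cases hi : i ∈ h.support
  · rw [← mul_prod_erase _ _ hi, Nat.cast_mul, mul_right_comm]
    refine Subring.mul_mem _ ?_ (natCast_mem _ _)
    rw [mul_comm, Rat.mul_den_eq_num]
    exact intCast_mem _ _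
  · rw [notMem_support_iff.1 hi, mul_zero]
    exact Subring.zero_mem _

/-- The highest coefficients of divisible powers. -/
theorem exists_top_integral {q : ℚ[X]} (hq : q.Monic) (k : ℕ) :
    ∃ D : ℕ, 0 < D ∧ ∀ M, D ∣ M → ∀ i, q.natDegree * (M - k) ≤ i →
      (q ^ M).coeff i ∈ (Int.castRingHom ℚ).range := by
  obtain ⟨m, hm⟩ : ∃ m, m = q.natDegree := ⟨_, rfl⟩
  obtain ⟨h, hh⟩ : ∃ h, h = q - X ^ m := ⟨_, rfl⟩
  have hhdeg : ∀ i, m ≤ i → h.coeff i = 0 := fun i hi => by
    rw [hh, coeff_sub, coeff_X_pow]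
    rcases hi.eq_or_lt with rfl | hlt
    · rw [if_pos rfl, hm, hq.coeff_natDegree, sub_self]
    · rw [if_neg hlt.ne', coeff_eq_zero_of_natDegree_lt (hm ▸ hlt), sub_zero]
  obtain ⟨d, hd, hdh⟩ := exists_clear_den h
  refine ⟨(m * k)! * d ^ (m * k), by positivity, fun M hM i hi => ?_⟩
  rw [show q = h + X ^ m by rw [hh]; ring, add_pow, finsetSum_coeff]
  refine Subring.sum_mem _ fun l hl => ?_
  rw [mem_range, Nat.lt_succ_iff] at hl
  rw [← pow_mul, coeff_mul_natCast, coeff_mul_X_pow']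
  split_ifs with hle
  swap
  · rw [zero_mul]; exact Subring.zero_mem _
  rcases Nat.eq_zero_or_pos l with rfl | hl0
  · rw [pow_zero, Nat.choose_zero_right, Nat.cast_one, mul_one, coeff_one]
    split_ifs
    exacts [Subring.one_mem _, Subring.zero_mem _]
  by_cases hlk : l ≤ m * k
  · obtain ⟨c, hc⟩ := pow_dvd_choose hM hl0 hlk
    obtain ⟨e, he⟩ := Nat.exists_eq_add_of_le hlk
    obtain ⟨v, hv⟩ : (C (d : ℚ) * h) ∈ lifts (Int.castRingHom ℚ) := by
      rw [lifts_iff_coeff_lifts]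
      intro j
      rw [coeff_C_mul]
      obtain ⟨a, ha⟩ := hdh j
      exact ⟨a, ha⟩
    have hv' : v.map (Int.castRingHom ℚ) = C (d : ℚ) * h := hv
    have hpow : (d : ℚ) ^ l * (h ^ l).coeff (i - m * (M - l)) ∈ (Int.castRingHom ℚ).range := by
      rw [← coeff_C_mul, C_pow, ← mul_pow, ← hv', ← Polynomial.map_pow, coeff_map]
      exact ⟨_, rfl⟩
    rw [hc, he, Nat.cast_mul, Nat.cast_pow, pow_add, ← mul_assoc, ← mul_assoc,
      mul_comm _ ((d : ℚ) ^ l)]
    exact Subring.mul_mem _ (Subring.mul_mem _ hpow (by rw [← Nat.cast_pow]; exact natCast_mem _ _))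
      (natCast_mem _ _)
  · rcases eq_or_ne h 0 with hz | hz
    · rw [hz, zero_pow hl0.ne', coeff_zero, zero_mul]
      exact Subring.zero_mem _
    rw [coeff_eq_zero_of_natDegree_lt, zero_mul]
    · exact Subring.zero_mem _
    refine natDegree_pow_le.trans_lt ?_
    have h1 : h.natDegree < m := by
      by_contra hge
      exact hz (leadingCoeff_eq_zero.1 (hhdeg _ (not_lt.1 hge)))
    have h2 : l * (h.natDegree + 1) ≤ l * m := Nat.mul_le_mul_left l h1
    have h3 : m * M ≤ m * (M - k) + m * k := by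
      rw [← mul_add]
      exact Nat.mul_le_mul_left m (by omega)
    have h5 : m * M = m * (M - l) + l * m := by
      rw [mul_comm l m, ← mul_add, Nat.sub_add_cancel hl]
    rw [← hm] at hi
    rw [mul_add, mul_one] at h2
    omega

/-- Rounding in a triangular basis. -/
theorem exists_rounding (e : ℕ → ℚ[X]) (he : ∀ j, (e j).Monic) (hd : ∀ j, (e j).natDegree = j)
    (N : ℕ) : ∀ G : ℚ[X], (∀ i, N ≤ i → G.coeff i ∈ (Int.castRingHom ℚ).range) →
      ∃ t : ℕ → ℚ, (∀ j, |t j| ≤ 1 / 2) ∧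
        ∀ i, (G + ∑ j ∈ range N, C (t j) * e j).coeff i ∈ (Int.castRingHom ℚ).range := by
  induction N with
  | zero => exact fun G hG => ⟨0, fun j => by simp, fun i => by simpa using hG i (Nat.zero_le i)⟩
  | succ N ih =>
    intro G hG
    obtain ⟨s, hs⟩ : ∃ s : ℚ, s = (round (G.coeff N) : ℤ) - G.coeff N := ⟨_, rfl⟩
    obtain ⟨t, ht, hint⟩ := ih (G + C s * e N) fun i hi => by
      rw [coeff_add, coeff_C_mul]
      rcases hi.eq_or_lt with h | h
      · subst h
        rw [show (e N).coeff N = 1 by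
          have h' := (he N).coeff_natDegree; rwa [hd] at h', mul_one, hs, add_sub_cancel]
        exact intCast_mem _ _
      · rw [coeff_eq_zero_of_natDegree_lt ((hd N).trans_lt h), mul_zero, add_zero]
        exact hG i h
    refine ⟨Function.update t N s, fun j => ?_, fun i => ?_⟩
    · rcases eq_or_ne j N with rfl | hj
      · rw [Function.update_self, hs, abs_sub_comm]
        exact abs_sub_round _
      · rw [Function.update_of_ne hj]; exact ht j
    · rw [sum_range_succ, Function.update_self, sum_congr rfl fun j hj => by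
        rw [Function.update_of_ne (ne_of_lt (mem_range.1 hj))],
        add_comm (∑ j ∈ range N, _) (C s * e N), ← add_assoc]
      exact hint i

/-- An integral polynomial from a rational one with integral coefficients. -/
theorem exists_int_monic {G : ℚ[X]} (hm : G.Monic)
    (hG : ∀ i, G.coeff i ∈ (Int.castRingHom ℚ).range) :
    ∃ P : ℤ[X], P.Monic ∧ P.natDegree = G.natDegree ∧ P.map (Int.castRingHom ℚ) = G := by
  have hl : G ∈ lifts (Int.castRingHom ℚ) := by
    rw [lifts_iff_coeff_lifts]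
    exact fun i => hG i
  obtain ⟨P, hP, -, hPm⟩ := lifts_and_degree_eq_and_monic hl hm
  exact ⟨P, hPm, by rw [← hP, hPm.natDegree_map], hP⟩

theorem sum_range_mul_div (m N : ℕ) (f : ℕ → ℝ) :
    ∑ j ∈ range (m * N), f (j / m) = m * ∑ a ∈ range N, f a := by
  rcases Nat.eq_zero_or_pos m with rfl | hm
  · simp
  induction N with
  | zero => simp
  | succ N ih =>
    rw [Nat.mul_succ, sum_range_add, ih, sum_range_succ, mul_add]
    congr 1
    rw [sum_congr rfl fun j hj => show f ((m * N + j) / m) = f N by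
      rw [Nat.mul_add_div hm, Nat.div_eq_of_lt (mem_range.1 hj), add_zero]]
    simp

/-- **Integral polynomials near a power.** -/
theorem exists_int_near_pow {q : ℚ[X]} (hq : q.Monic) (hm : 0 < q.natDegree) {C₀ : ℝ}
    (hC : ∀ z : ℂ, ∀ i < q.natDegree, ‖z‖ ^ i ≤ C₀ * (1 + ‖aeval z q‖)) {R : ℝ} (hR : 2 ≤ R)
    {ε : ℝ} (hε : 0 < ε) :
    ∃ M : ℕ, 0 < M ∧ ∃ P : ℤ[X], P.Monic ∧ P.natDegree = q.natDegree * M ∧
      ∀ z : ℂ, ‖aeval z P - aeval z q ^ M‖ ≤ ε * max ‖aeval z q‖ R ^ M := by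
  obtain ⟨m, hmdef⟩ : ∃ m, m = q.natDegree := ⟨_, rfl⟩
  obtain ⟨k, hk⟩ := pow_unbounded_of_one_lt (C₀ * m / ε) (show 1 < R by linarith)
  obtain ⟨D, hD, htop⟩ := exists_top_integral hq (k + 1)
  obtain ⟨M, hM⟩ : ∃ M, M = D * (k + 1) := ⟨_, rfl⟩
  have hkM : k + 1 ≤ M := hM ▸ Nat.le_mul_of_pos_left _ hD
  obtain ⟨e, he⟩ : ∃ e : ℕ → ℚ[X], e = fun j => X ^ (j % m) * q ^ (j / m) := ⟨_, rfl⟩
  have hem : ∀ j, (e j).Monic := fun j => he ▸ (monic_X_pow _).mul (hq.pow _)
  have hed : ∀ j, (e j).natDegree = j := fun j => by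
    simp only [he]
    rw [(monic_X_pow _).natDegree_mul (hq.pow _), natDegree_X_pow, hq.natDegree_pow, ← hmdef,
      Nat.mod_add_div']
  obtain ⟨t, ht, hint⟩ := exists_rounding e hem hed (m * (M - (k + 1))) (q ^ M)
    fun i hi => htop M (hM ▸ dvd_mul_right D _) i (hmdef ▸ hi)
  have hlow : (∑ j ∈ range (m * (M - (k + 1))), C (t j) * e j).natDegree < (q ^ M).natDegree := by
    rw [hq.natDegree_pow, ← hmdef, mul_comm M m]
    have h' : m * (M - (k + 1)) < m * M := Nat.mul_lt_mul_of_pos_left (by omega) (hmdef ▸ hm)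
    refine lt_of_le_of_lt (natDegree_sum_le_of_forall_le _ _ (n := m * (M - (k + 1)))
      fun j hj => ?_) h'
    exact (natDegree_C_mul_le _ _).trans ((hed j).trans_le (mem_range.1 hj).le)
  have hdeg := degree_lt_degree hlow
  obtain ⟨P, hP, hPd, hPmap⟩ := exists_int_monic
    ((hq.pow M).add_of_left hdeg) hint
  refine ⟨M, by omega, P, hP, ?_, fun z => ?_⟩
  · rw [hPd, natDegree_add_eq_left_of_natDegree_lt hlow, hq.natDegree_pow, mul_comm]
  obtain ⟨Q, hQ⟩ : ∃ Q, Q = max ‖aeval z q‖ R := ⟨_, rfl⟩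
  have hQR : R ≤ Q := hQ ▸ le_max_right _ _
  have hQ1 : 1 ≤ Q := by linarith
  have hC0 : 0 ≤ C₀ := by
    have h := hC 0 0 hm
    rw [pow_zero] at h
    nlinarith [norm_nonneg (aeval (0 : ℂ) q)]
  have e1 : aeval z P - aeval z q ^ M =
      ∑ j ∈ range (m * (M - (k + 1))), ((t j : ℚ) : ℂ) * aeval z (e j) := by
    rw [← aeval_map_algebraMap ℚ z P, algebraMap_int_eq, hPmap, map_add, map_pow, map_sum,
      add_sub_cancel_left]
    simp [eq_ratCast]
  rw [e1, ← hQ]
  have hterm : ∀ j, ‖((t j : ℚ) : ℂ) * aeval z (e j)‖ ≤ C₀ * Q * Q ^ (j / m) := fun j => by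
    rw [norm_mul, he]
    simp only [map_mul, map_pow, aeval_X, norm_mul, norm_pow]
    have h1 : ‖((t j : ℚ) : ℂ)‖ ≤ 1 / 2 := by
      rw [Complex.norm_ratCast, ← Rat.cast_abs]
      exact (Rat.cast_le.2 (ht j)).trans (by norm_num)
    have h2 : ‖z‖ ^ (j % m) ≤ C₀ * (2 * Q) := (hC z _ (hmdef ▸ Nat.mod_lt _ (hmdef ▸ hm))).trans
      (mul_le_mul_of_nonneg_left (by linarith [hQ ▸ le_max_left ‖aeval z q‖ R]) hC0)
    calc _ ≤ 1 / 2 * (C₀ * (2 * Q) * Q ^ (j / m)) := by
          gcongr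
          exact hQ ▸ le_max_left _ _
      _ = _ := by ring
  refine (norm_sum_le _ _).trans ((sum_le_sum fun j _ => hterm j).trans ?_)
  rw [← mul_sum, sum_range_mul_div]
  have hgeom : ∀ N, ∑ a ∈ range N, Q ^ a ≤ Q ^ N := by
    intro N
    induction N with
    | zero => simp
    | succ N ih =>
      rw [sum_range_succ, pow_succ]
      nlinarith [pow_nonneg (zero_le_one.trans hQ1) N]
  refine (mul_le_mul_of_nonneg_left (mul_le_mul_of_nonneg_left (hgeom _) (Nat.cast_nonneg m))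
    (by positivity)).trans ?_
  have hQk : C₀ * m ≤ ε * Q ^ k := by
    rw [div_lt_iff₀ hε] at hk
    refine hk.le.trans ?_
    rw [mul_comm]
    gcongr
  calc C₀ * Q * ((m : ℝ) * Q ^ (M - (k + 1))) = C₀ * m * (Q * Q ^ (M - (k + 1))) := by ring
    _ ≤ ε * Q ^ k * (Q * Q ^ (M - (k + 1))) := by
        exact mul_le_mul_of_nonneg_right hQk (by positivity)
    _ = ε * (Q ^ k * Q ^ 1 * Q ^ (M - (k + 1))) := by ring
    _ = ε * Q ^ M := by rw [← pow_add, ← pow_add, Nat.add_sub_cancel' hkM]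

end FA.FeketeSzego
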