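import Fermat.Agent.Fekete.Intervals
import Fermat.Agent.FeketeSzego.Lemniscate
import Fermat.Agent.FeketeSzego.Rounding

/-!
# The theorem of Fekete and Szegő
-/

set_option autoImplicit false

noncomputable section

namespace FA.FeketeSzego

open Polynomial Finset
open scoped ComplexConjugate

variable {K U : Set ℂ}

theorem exists_eval_eq {P : ℂ[X]} (hP : 0 < P.natDegree) (c : ℂ) : ∃ z, P.eval z = c := by
  obtain ⟨z, hz⟩ := IsAlgClosed.exists_root (P - C c) (fun h => by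
    have h' := natDegree_eq_zero_iff_degree_le_zero.2 h.le
    rw [natDegree_sub_C] at h'
    omega)
  exact ⟨z, sub_eq_zero.1 (by simpa [IsRoot] using hz)⟩

/-- The `P`-preimages of the multiples of roots of unity by `V`. -/
theorem infinite_preimages {P : ℤ[X]} (hP : P.Monic) (hd : 0 < P.natDegree) {V : ℕ} (hV : 0 < V)
    {S : Set ℂ} (hS : ∀ z : ℂ, ‖aeval z P‖ = V → z ∈ S) :
    {x : ℂ | IsIntegral ℤ x ∧ ∀ z ∈ (minpoly ℤ x).aroots ℂ, z ∈ S}.Infinite := by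
  have hd' : 0 < (P.map (Int.castRingHom ℂ)).natDegree := by rwa [hP.natDegree_map]
  choose f hf using fun l : ℕ =>
    exists_eval_eq hd' ((V : ℂ) * Complex.exp (2 * Real.pi * Complex.I / (l + 1 : ℕ)))
  have hprim : ∀ l : ℕ,
      IsPrimitiveRoot (Complex.exp (2 * Real.pi * Complex.I / (l + 1 : ℕ))) (l + 1) := fun l =>
    Complex.isPrimitiveRoot_exp _ l.succ_ne_zero
  refine Set.infinite_of_injective_forall_mem (f := f) (fun a b hab => ?_) fun l => ?_
  · have h := (hf a).symm.trans ((congrArg (fun w => (P.map (Int.castRingHom ℂ)).eval w)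
      hab).trans (hf b))
    rw [mul_right_inj' (Nat.cast_ne_zero.2 hV.ne')] at h
    exact Nat.succ_injective ((hprim a).unique (h ▸ hprim b))
  have hfa : aeval (f l) P = (V : ℂ) * Complex.exp (2 * Real.pi * Complex.I / (l + 1 : ℕ)) := by
    rw [← hf l, eval_map, aeval_def, algebraMap_int_eq]
  obtain ⟨G, hG⟩ : ∃ G : ℤ[X], G = P ^ (l + 1) - C ((V : ℤ) ^ (l + 1)) := ⟨_, rfl⟩
  have hGm : G.Monic := by
    refine hG ▸ (hP.pow _).sub_of_left (degree_C_le.trans_lt ?_)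
    rw [← natDegree_pos_iff_degree_pos, hP.natDegree_pow]
    positivity
  have haeval : ∀ z : ℂ, aeval z G = aeval z P ^ (l + 1) - (V : ℂ) ^ (l + 1) := fun z => by
    simp [hG]
  have hroot : aeval (f l) G = 0 := by
    rw [haeval, hfa, mul_pow, (hprim l).pow_eq_one, mul_one, sub_self]
  have hint : IsIntegral ℤ (f l) := ⟨G, hGm, by rwa [← aeval_def]⟩
  refine ⟨hint, fun z hz => hS z ?_⟩
  rw [mem_aroots] at hz
  have hzG : aeval z G = 0 := by
    obtain ⟨T, hT⟩ := minpoly.isIntegrallyClosed_dvd hint hroot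
    rw [hT, map_mul, hz.2, zero_mul]
  rw [haeval, sub_eq_zero] at hzG
  have h := congrArg norm hzG
  rw [norm_pow, norm_pow, Complex.norm_natCast] at h
  exact (pow_left_inj₀ (norm_nonneg _) (Nat.cast_nonneg V) l.succ_ne_zero).1 h

/-- **The theorem of Fekete and Szegő.** -/
theorem infinite_conjugate_sets (hK : IsCompact K) (hsymm : ∀ z ∈ K, conj z ∈ K)
    (hbig : BigOn K) (hU : IsOpen U) (hKU : K ⊆ U) :
    {x : ℂ | IsIntegral ℤ x ∧ ∀ z ∈ (minpoly ℤ x).aroots ℂ, z ∈ U}.Infinite := by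
  obtain ⟨q, hq, hqd, R, hR, hqK, hqU⟩ := exists_lemniscate hK hsymm hbig hU hKU
  have hev : ∀ z : ℂ, aeval z q = (q.map (algebraMap ℚ ℂ)).eval z := fun z => by
    rw [eval_map, aeval_def]
  obtain ⟨C₀, -, hC⟩ := exists_pow_le_one_add (hq.map (algebraMap ℚ ℂ)) (hq.natDegree_map _)
  obtain ⟨M, hM, P, hP, hPd, hnear⟩ := exists_int_near_pow hq hqd
    (fun z i hi => by rw [hev]; exact hC z i hi) (show 2 ≤ R by linarith)
    (show (0 : ℝ) < 1 / 4 by norm_num)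
  have hRM : 8 ≤ R ^ M := hR.trans (le_self_pow₀ (by linarith) hM.ne')
  obtain ⟨V, hV⟩ : ∃ V : ℕ, V = ⌊R ^ M / 2⌋₊ + 1 := ⟨_, rfl⟩
  have hV1 : R ^ M / 2 < V := by
    rw [hV]; push_cast; exact Nat.lt_floor_add_one _
  have hV2 : (V : ℝ) < 3 / 4 * R ^ M := by
    rw [hV]; push_cast
    linarith [Nat.floor_le (show 0 ≤ R ^ M / 2 by positivity)]
  refine infinite_preimages hP (by rw [hPd]; positivity) (show 0 < V by omega) fun z hz => ?_
  have hzR : ‖aeval z q‖ ≤ R := by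
    by_contra hlt
    rw [not_le] at hlt
    have h := hnear z
    rw [max_eq_left hlt.le] at h
    have h' : 3 / 4 * R ^ M ≤ ‖aeval z P‖ := by
      have h1 := norm_le_norm_sub_add (aeval z q ^ M) (aeval z P)
      rw [norm_sub_rev, norm_pow] at h1
      have h2 : R ^ M ≤ ‖aeval z q‖ ^ M := pow_le_pow_left₀ (by linarith) hlt.le M
      linarith
    linarith
  refine (hqU z hzR).resolve_right fun hhull => ?_
  have hsup : ∀ x ∈ K, ‖(P.map (Int.castRingHom ℂ)).eval x‖ ≤ R ^ M / 2 := fun x hx => by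
    rw [eval_map, ← algebraMap_int_eq, ← aeval_def]
    have h := hnear x
    rw [max_eq_right ((hqK x hx).trans (by linarith))] at h
    have h1 : ‖aeval x q‖ ^ M ≤ R ^ M / 4 := by
      refine (pow_le_pow_left₀ (norm_nonneg _) (hqK x hx) M).trans ?_
      rw [div_pow]
      refine div_le_div_of_nonneg_left (by positivity) (by norm_num)
        (le_self_pow₀ (by norm_num) hM.ne')
    have h2 := norm_le_norm_sub_add (aeval x P) (aeval x q ^ M)
    rw [norm_pow] at h2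
    linarith
  have h := hhull _ _ hsup
  rw [eval_map, ← algebraMap_int_eq, ← aeval_def, hz] at h
  linarith

/-- **The converse.** -/
theorem exists_finite_nhds (hK : IsCompact K) {p : ℂ[X]} (hp : p.Monic) (hd : 0 < p.natDegree)
    (hsmall : ∀ z ∈ K, ‖p.eval z‖ < 1) :
    ∃ U : Set ℂ, IsOpen U ∧ K ⊆ U ∧
      {x : ℂ | IsIntegral ℤ x ∧ ∀ z ∈ (minpoly ℤ x).aroots ℂ, z ∈ U}.Finite := by
  obtain ⟨ρ₀, hρ₀, hρK⟩ : ∃ ρ : ℝ, 0 < ρ ∧ ∀ z ∈ K, ρ ≤ 1 - ‖p.eval z‖ :=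
    hK.exists_forall_le' (by fun_prop) fun z hz => sub_pos.2 (hsmall z hz)
  obtain ⟨ρ, hρ⟩ : ∃ ρ : ℝ, ρ = max (1 - ρ₀ / 2) (1 / 2) := ⟨_, rfl⟩
  have hρ1 : ρ < 1 := hρ ▸ max_lt (by linarith) (by norm_num)
  have hρ0 : 0 < ρ := hρ ▸ lt_max_of_lt_right (by norm_num)
  obtain ⟨B₀, hB₀⟩ := hK.isBounded.exists_norm_le
  obtain ⟨B, hB1, hB⟩ : ∃ B : ℝ, 1 ≤ B ∧ ∀ z ∈ K, ‖z‖ < B :=
    ⟨max B₀ 0 + 1, by linarith [le_max_right B₀ 0],
      fun z hz => by linarith [hB₀ z hz, le_max_left B₀ 0]⟩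
  refine ⟨{z | ‖p.eval z‖ < ρ} ∩ Metric.ball 0 B,
    (isOpen_lt p.continuous.norm continuous_const).inter Metric.isOpen_ball,
    fun z hz => ⟨?_, by simpa using hB z hz⟩, ?_⟩
  · show ‖p.eval z‖ < ρ
    rw [hρ]
    exact lt_max_of_lt_left (by linarith [hρK z hz])
  obtain ⟨d, hdd⟩ : ∃ d, d = p.natDegree := ⟨_, rfl⟩
  obtain ⟨r, hr⟩ : ∃ r : ℝ, r = ρ ^ ((d : ℝ)⁻¹) := ⟨_, rfl⟩
  have hrd : r ^ d = ρ := by
    rw [hr, Real.rpow_inv_natCast_pow hρ0.le (by omega)]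
  have hr0 : 0 < r := hr ▸ Real.rpow_pos_of_pos hρ0 _
  have hr1 : r < 1 := hr ▸ Real.rpow_lt_one hρ0.le hρ1 (inv_pos.2 (by exact_mod_cast hdd ▸ hd))
  refine FA.Fekete.finite_of_polynomials (C := (B / r) ^ d) (pow_pos (by positivity) _) hr0 hr1
    (fun k => X ^ (k % d) * p ^ (k / d)) (fun k => ?_) (fun k => (monic_X_pow _).mul (hp.pow _))
    fun k z hz => ?_
  · rw [(monic_X_pow _).natDegree_mul (hp.pow _), natDegree_X_pow, hp.natDegree_pow, ← hdd,
      Nat.mod_add_div']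
  obtain ⟨hzp, hzB⟩ := hz
  rw [Metric.mem_ball, dist_zero_right] at hzB
  rw [eval_mul, eval_pow, eval_X, eval_pow, norm_mul, norm_pow, norm_pow]
  have hmod : k % d ≤ d := (Nat.mod_lt _ (by omega)).le
  calc ‖z‖ ^ (k % d) * ‖p.eval z‖ ^ (k / d) ≤ B ^ (k % d) * (r ^ d) ^ (k / d) := by
        rw [hrd]
        gcongr
        exact le_of_lt hzp
    _ = (B / r) ^ (k % d) * r ^ k := by
        conv_rhs => rw [← Nat.mod_add_div k d, pow_add, pow_mul, ← mul_assoc]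
        rw [Nat.mod_add_div]
        congr 1
        rw [← mul_pow, div_mul_cancel₀ _ hr0.ne']
    _ ≤ (B / r) ^ d * r ^ k := by
        gcongr
        rw [one_le_div hr0]
        linarith

/-- **The dichotomy.** -/
theorem infinite_iff_bigOn (hK : IsCompact K) (hsymm : ∀ z ∈ K, conj z ∈ K) :
    (∀ U : Set ℂ, IsOpen U → K ⊆ U →
      {x : ℂ | IsIntegral ℤ x ∧ ∀ z ∈ (minpoly ℤ x).aroots ℂ, z ∈ U}.Infinite) ↔ BigOn K := by
  refine ⟨fun h p hp hd => ?_, fun h U hU hKU => infinite_conjugate_sets hK hsymm h hU hKU⟩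
  by_contra hcon
  push Not at hcon
  obtain ⟨U, hU, hKU, hfin⟩ := exists_finite_nhds hK hp hd hcon
  exact h U hU hKU hfin

end FA.FeketeSzego
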