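import Mathlib

/-!
# Fekete points and the polynomial hull

For a compact set `K` in the plane on which every monic polynomial somewhere has modulus at least
one, the Fekete points give monic polynomials which are exponentially large off the polynomial
hull of `K` compared with their maximum on `K`.
-/

set_option autoImplicit false

noncomputable section

namespace FA.FeketeSzego

open Polynomial Finset
open scoped ComplexConjugate

/-- Every monic polynomial of positive degree somewhere on `K` has modulus at least one. -/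
def BigOn (K : Set ℂ) : Prop :=
  ∀ p : ℂ[X], p.Monic → 0 < p.natDegree → ∃ z ∈ K, 1 ≤ ‖p.eval z‖

/-- The polynomial hull. -/
def InHull (K : Set ℂ) (z : ℂ) : Prop :=
  ∀ (p : ℂ[X]) (s : ℝ), (∀ x ∈ K, ‖p.eval x‖ ≤ s) → ‖p.eval z‖ ≤ s

variable {K : Set ℂ}

theorem inHull_of_mem {z : ℂ} (hz : z ∈ K) : InHull K z := fun _ _ h => h z hz

theorem isClosed_inHull (K : Set ℂ) : IsClosed {z | InHull K z} := by
  simp only [InHull, Set.ofPred_forall]
  exact isClosed_iInter fun p => isClosed_iInter fun s => isClosed_iInter fun _ =>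
    isClosed_le (p.continuous.norm) continuous_const

theorem norm_eval_map_conj (p : ℂ[X]) (z : ℂ) :
    ‖(p.map (starRingEnd ℂ)).eval z‖ = ‖p.eval (conj z)‖ := by
  conv_lhs => rw [← Complex.conj_conj z, eval_map_apply, RCLike.norm_conj]

theorem inHull_conj (hsymm : ∀ z ∈ K, conj z ∈ K) {z : ℂ} (hz : InHull K z) :
    InHull K (conj z) := fun p s h => by
  rw [← norm_eval_map_conj]
  exact hz _ s fun x hx => by rw [norm_eval_map_conj]; exact h _ (hsymm x hx)

/-- A point off the hull is separated by a polynomial bounded by one on `K`. -/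
theorem exists_separating {z : ℂ} (hne : K.Nonempty) (hz : ¬InHull K z) :
    ∃ p : ℂ[X], (∀ x ∈ K, ‖p.eval x‖ ≤ 1) ∧ 1 < ‖p.eval z‖ := by
  simp only [InHull, not_forall, not_le] at hz
  obtain ⟨p, s, hs, hlt⟩ := hz
  have hs0 : 0 ≤ s := (norm_nonneg _).trans (hs _ hne.some_mem)
  obtain ⟨t, ht1, ht2⟩ := exists_between hlt
  have ht0 : 0 < t := hs0.trans_lt ht1
  refine ⟨C ((t⁻¹ : ℝ) : ℂ) * p, fun x hx => ?_, ?_⟩
  · rw [eval_mul, eval_C, norm_mul, Complex.norm_real, Real.norm_of_nonneg (inv_nonneg.2 ht0.le),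
      inv_mul_le_iff₀ ht0, mul_one]
    exact (hs x hx).trans ht1.le
  · rw [eval_mul, eval_C, norm_mul, Complex.norm_real, Real.norm_of_nonneg (inv_nonneg.2 ht0.le),
      lt_inv_mul_iff₀ ht0, mul_one]
    exact ht2

/-- One finite degree and one margin separate a compact set from the hull. -/
theorem exists_uniform_separating (hne : K.Nonempty) {L : Set ℂ} (hL : IsCompact L)
    (hd : ∀ z ∈ L, ¬InHull K z) :
    ∃ d : ℕ, 0 < d ∧ ∃ θ : ℝ, 1 < θ ∧ ∀ z ∈ L, ∃ p : ℂ[X], p.natDegree ≤ d ∧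
      (∀ x ∈ K, ‖p.eval x‖ ≤ 1) ∧ θ ≤ ‖p.eval z‖ := by
  obtain ⟨W, hW⟩ : ∃ W : ℕ → Set ℂ, W = fun k => ⋃ p ∈ {p : ℂ[X] | p.natDegree ≤ k ∧
      ∀ x ∈ K, ‖p.eval x‖ ≤ 1}, {z | 1 + 1 / ((k : ℝ) + 1) < ‖p.eval z‖} := ⟨_, rfl⟩
  have hopen : ∀ k, IsOpen (W k) := fun k => hW ▸ isOpen_biUnion fun p _ =>
    isOpen_lt continuous_const p.continuous.norm
  have hmono : Monotone W := fun a b hab => by
    rw [hW]
    simp only [Set.subset_def, Set.mem_iUnion, Set.mem_ofPred_eq, exists_prop]
    rintro z ⟨p, ⟨hp, hb⟩, hz⟩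
    refine ⟨p, ⟨hp.trans hab, hb⟩, lt_of_le_of_lt ?_ hz⟩
    gcongr
  have hcov : L ⊆ ⋃ k, W k := fun z hz => by
    obtain ⟨p, hp, hlt⟩ := exists_separating hne (hd z hz)
    obtain ⟨k, hk⟩ := exists_nat_one_div_lt (sub_pos.2 hlt)
    refine Set.mem_iUnion.2 ⟨max k p.natDegree, ?_⟩
    rw [hW]
    simp only [Set.mem_iUnion, Set.mem_ofPred_eq, exists_prop]
    refine ⟨p, ⟨le_max_right _ _, hp⟩, ?_⟩
    have h : 1 / (((max k p.natDegree : ℕ) : ℝ) + 1) ≤ 1 / ((k : ℝ) + 1) := by
      gcongr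
      exact le_max_left _ _
    linarith
  obtain ⟨k, hk⟩ := hL.elim_directed_cover W hopen hcov hmono.directed_le
  refine ⟨k + 1, k.succ_pos, 1 + 1 / ((k : ℝ) + 1),
    lt_add_of_pos_right _ (by positivity), fun z hz => ?_⟩
  have h := hk hz
  rw [hW] at h
  simp only [Set.mem_iUnion, Set.mem_ofPred_eq, exists_prop] at h
  obtain ⟨p, ⟨hp, hb⟩, hlt⟩ := h
  exact ⟨p, by omega, hb, hlt.le⟩

theorem BigOn.nonempty (h : BigOn K) : K.Nonempty := by
  obtain ⟨z, hz, -⟩ := h X monic_X (by simp)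
  exact ⟨z, hz⟩

theorem BigOn.infinite (h : BigOn K) : K.Infinite := fun hfin => by
  obtain ⟨z, hz, h1⟩ := h (∏ k ∈ hfin.toFinset, (X - C k))
    (monic_prod_of_monic _ _ fun k _ => monic_X_sub_C k) (by
      rw [natDegree_prod _ _ fun k _ => X_sub_C_ne_zero k]
      simp only [natDegree_X_sub_C, sum_const, smul_eq_mul, mul_one]
      exact card_pos.2 (by simpa using h.nonempty))
  rw [eval_prod, prod_eq_zero (hfin.mem_toFinset.2 hz) (by simp), norm_zero] at h1
  exact absurd h1 (by norm_num)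

/-- The Vandermonde determinant with one varying point. -/
theorem det_vandermonde_update {n : ℕ} {x : Fin (n + 1) → ℂ} (hx : Function.Injective x)
    (j : Fin (n + 1)) (z : ℂ) :
    (Matrix.vandermonde (Function.update x j z)).det =
      (Matrix.vandermonde x).det * (Lagrange.basis univ x j).eval z := by
  classical
  obtain ⟨V, hV⟩ : ∃ V, V = Matrix.vandermonde x := ⟨_, rfl⟩
  obtain ⟨f, hf⟩ : ∃ f : ℂ[X], f = ∑ l : Fin (n + 1),
      C (V.updateRow j (Pi.single l 1)).det * X ^ (l : ℕ) := ⟨_, rfl⟩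
  have heval : ∀ w : ℂ, f.eval w = (Matrix.vandermonde (Function.update x j w)).det := by
    intro w
    have hrow : Matrix.vandermonde (Function.update x j w) =
        V.updateRow j fun l => w ^ (l : ℕ) := by
      ext i l
      rcases eq_or_ne i j with rfl | hi
      · simp [Matrix.vandermonde_apply]
      · simp [hV, Matrix.vandermonde_apply, hi]
    rw [hrow, hf, eval_finsetSum]
    simp only [eval_mul, eval_C, eval_pow, eval_X]
    have h := congrFun (congrFun (Matrix.mul_adjugate (V.updateRow j fun l => w ^ (l : ℕ))) j) j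
    simp only [Matrix.smul_apply, Matrix.one_apply_eq, smul_eq_mul, mul_one] at h
    rw [← h, Matrix.mul_apply]
    refine sum_congr rfl fun l _ => ?_
    rw [Matrix.adjugate_apply, Matrix.updateRow_idem, Matrix.updateRow_self, mul_comm]
  have hdeg : f.degree < (univ : Finset (Fin (n + 1))).card := by
    rw [hf, card_univ, Fintype.card_fin]
    exact degree_sum_fin_lt _
  rw [← heval z, Lagrange.eq_interpolate hx.injOn hdeg, Lagrange.interpolate_apply, eval_finsetSum,
    sum_eq_single j]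
  · rw [eval_mul, eval_C, heval, Function.update_eq_self]
  · intro i _ hi
    rw [eval_mul, eval_C, heval, Matrix.det_zero_of_row_eq hi (by
      funext l; simp [Matrix.vandermonde_apply, hi]), zero_mul]
  · simp

/-- Fekete points: the Lagrange basis is bounded by one on `K`. -/
theorem exists_fekete_points (hK : IsCompact K) (hinf : K.Infinite) (n : ℕ) :
    ∃ x : Fin (n + 1) → ℂ, (∀ i, x i ∈ K) ∧ Function.Injective x ∧
      ∀ j, ∀ z ∈ K,
        ∏ i ∈ univ.erase j, ‖z - x i‖ ≤ ∏ i ∈ univ.erase j, ‖x j - x i‖ := by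
  classical
  obtain ⟨x₀, hx₀⟩ : ∃ x₀ : Fin (n + 1) → ℂ, (∀ i, x₀ i ∈ K) ∧ Function.Injective x₀ :=
    ⟨fun i => hinf.natEmbedding K i, fun i => (hinf.natEmbedding K i).2,
      Subtype.val_injective.comp ((hinf.natEmbedding K).injective.comp Fin.val_injective)⟩
  obtain ⟨x, hxK, hmax⟩ := (isCompact_univ_pi fun _ : Fin (n + 1) => hK).exists_isMaxOn
    ⟨x₀, fun i _ => hx₀.1 i⟩
    (f := fun v => ‖(Matrix.vandermonde v).det‖) ((Continuous.matrix_det (continuous_matrix
      fun i j => by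
        simp only [Matrix.vandermonde_apply]
        fun_prop)).norm.continuousOn)
  have hxK' : ∀ i, x i ∈ K := fun i => hxK i (Set.mem_univ i)
  have h0 : 0 < ‖(Matrix.vandermonde x).det‖ :=
    (norm_pos_iff.2 (Matrix.det_vandermonde_ne_zero_iff.2 hx₀.2)).trans_le
      (hmax fun i _ => hx₀.1 i)
  have hinj : Function.Injective x := Matrix.det_vandermonde_ne_zero_iff.1 (norm_pos_iff.1 h0)
  refine ⟨x, hxK', hinj, fun j z hz => ?_⟩
  have h := hmax (show Function.update x j z ∈ Set.univ.pi fun _ => K from fun i _ => by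
    rcases eq_or_ne i j with rfl | hi
    · rwa [Function.update_self]
    · rw [Function.update_of_ne hi]; exact hxK' i)
  simp only [Set.mem_ofPred_eq, det_vandermonde_update hinj, norm_mul] at h
  have h1 := le_of_mul_le_mul_left (h.trans (mul_one _).symm.le) h0
  simp only [Lagrange.basis, Lagrange.basisDivisor, eval_prod, eval_mul, eval_C, eval_sub, eval_X,
    norm_prod, norm_mul, norm_inv, prod_mul_distrib, prod_inv_distrib] at h1
  rwa [inv_mul_le_iff₀ (prod_pos fun i hi => norm_pos_iff.2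
    (sub_ne_zero.2 fun e => ne_of_mem_erase hi (hinj e).symm)), mul_one] at h1

/-- The interpolation formula at a point off the nodes. -/
theorem exists_large_basis {n : ℕ} {x : Fin (n + 1) → ℂ} (hx : Function.Injective x)
    (hxK : ∀ i, x i ∈ K) {p : ℂ[X]} (hdeg : p.natDegree ≤ n) (hp : ∀ w ∈ K, ‖p.eval w‖ ≤ 1)
    (z : ℂ) :
    ∃ j, (∏ i ∈ univ.erase j, ‖x j - x i‖) * ‖p.eval z‖ ≤
      (n + 1 : ℕ) * ∏ i ∈ univ.erase j, ‖z - x i‖ := by
  classical
  have hdeg' : p.degree < (univ : Finset (Fin (n + 1))).card := by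
    rw [card_univ, Fintype.card_fin]
    exact lt_of_le_of_lt degree_le_natDegree (Nat.cast_lt.2 (by omega))
  have h : ‖p.eval z‖ ≤ ∑ j, ‖(Lagrange.basis univ x j).eval z‖ := by
    conv_lhs => rw [Lagrange.eq_interpolate hx.injOn hdeg', Lagrange.interpolate_apply,
      eval_finsetSum]
    refine (norm_sum_le _ _).trans (sum_le_sum fun j _ => ?_)
    rw [eval_mul, eval_C, norm_mul]
    exact mul_le_of_le_one_left (norm_nonneg _) (hp _ (hxK j))
  obtain ⟨j, -, hj⟩ := exists_max_image univ (fun j => ‖(Lagrange.basis univ x j).eval z‖)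
    univ_nonempty
  refine ⟨j, ?_⟩
  have hA : 0 < ∏ i ∈ univ.erase j, ‖x j - x i‖ := prod_pos fun i hi => norm_pos_iff.2
    (sub_ne_zero.2 fun e => ne_of_mem_erase hi (hx e).symm)
  have h2 : ‖p.eval z‖ ≤ (n + 1 : ℕ) * ‖(Lagrange.basis univ x j).eval z‖ := by
    refine h.trans ((sum_le_card_nsmul _ _ _ hj).trans (le_of_eq ?_))
    rw [card_univ, Fintype.card_fin, nsmul_eq_mul]
  refine (mul_le_mul_of_nonneg_left h2 hA.le).trans (le_of_eq ?_)
  simp only [Lagrange.basis, Lagrange.basisDivisor, eval_prod, eval_mul, eval_C, eval_sub, eval_X,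
    norm_prod, norm_mul, norm_inv, prod_mul_distrib, prod_inv_distrib]
  field_simp

end FA.FeketeSzego
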