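import Fermat.Agent.FeketeSzego.Chebyshev

/-!
# Robinson's theorem

An interval of length above four contains infinitely many complete sets of conjugate algebraic
integers: some monic integral polynomial swings beyond `±2` as often as its degree.
-/

set_option autoImplicit false

noncomputable section

namespace FA.FeketeSzego

open Polynomial Finset Filter
open scoped Topology

/-- A polynomial which changes sign at all `M + 1` nodes has only real roots. -/
theorem roots_real_of_sign_changes {f : ℝ[X]} {M : ℕ} (hf : f.Monic) (hd : f.natDegree = M)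
    {a b : ℝ} {x : ℕ → ℝ} (hx : ∀ i ≤ M, x i ∈ Set.Icc a b)
    (hanti : ∀ i < M, x (i + 1) < x i)
    (hsign : ∀ i ≤ M, 0 < (-1 : ℝ) ^ i * f.eval (x i)) :
    ∀ z : ℂ, aeval z f = 0 → z.im = 0 ∧ a ≤ z.re ∧ z.re ≤ b := by
  classical
  have hex : ∀ i : Fin M, ∃ y ∈ Set.Ioo (x (i + 1)) (x i), f.eval y = 0 := by
    intro i
    have hcont : ContinuousOn (fun y => (-1 : ℝ) ^ (i : ℕ) * f.eval y)
        (Set.Icc (x (i + 1)) (x i)) := by fun_prop
    have h1 := hsign i i.isLt.le
    have h2 := hsign (i + 1) i.isLt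
    rw [pow_succ] at h2
    obtain ⟨y, hy, hy0⟩ := intermediate_value_Ioo (hanti i i.isLt).le hcont
      (show (0 : ℝ) ∈ Set.Ioo _ _ from ⟨by linarith, h1⟩)
    exact ⟨y, hy, (mul_eq_zero.1 hy0).resolve_left (pow_ne_zero _ (by norm_num))⟩
  choose y hy hy0 using hex
  have hstep : ∀ j, j ≤ M → ∀ i, i ≤ j → x j ≤ x i := by
    intro j
    induction j with
    | zero => exact fun _ i hi => by rw [Nat.le_zero.1 hi]
    | succ j ih =>
      intro hj i hi
      rcases hi.eq_or_lt with rfl | h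
      · exact le_rfl
      · exact ((hanti j hj).le).trans (ih (by omega) i (by omega))
  have hinj : Function.Injective y := by
    have hlt : ∀ i j : Fin M, (i : ℕ) < j → y j < y i := fun i j hij =>
      lt_of_lt_of_le (hy j).2 ((hstep j j.isLt.le (i + 1) hij).trans (hy i).1.le)
    intro i j h
    by_contra hne
    rcases lt_or_gt_of_ne (Fin.val_ne_of_ne hne) with h' | h'
    · exact (hlt i j h').ne' h
    · exact (hlt j i h').ne h
  intro z hz
  obtain ⟨g, hg⟩ : ∃ g, g = f.map (algebraMap ℝ ℂ) := ⟨_, rfl⟩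
  have hg0 : g ≠ 0 := hg ▸ (hf.map _).ne_zero
  have hsub : univ.image (fun i => (y i : ℂ)) ⊆ g.roots.toFinset := fun w hw => by
    obtain ⟨i, -, rfl⟩ := mem_image.1 hw
    rw [Multiset.mem_toFinset, mem_roots hg0, IsRoot, hg,
      show ((y i : ℝ) : ℂ) = algebraMap ℝ ℂ (y i) from rfl, eval_map_apply, hy0, map_zero]
  have heq : univ.image (fun i => (y i : ℂ)) = g.roots.toFinset := by
    refine eq_of_subset_of_card_le hsub ?_
    rw [card_image_of_injective _ (f := fun i => (y i : ℂ))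
      (fun i j h => hinj (Complex.ofReal_injective h)), card_univ,
      Fintype.card_fin]
    refine (Multiset.toFinset_card_le _).trans ((card_roots' g).trans ?_)
    rw [hg, hf.natDegree_map, hd]
  have hzr : z ∈ g.roots.toFinset := by
    rw [Multiset.mem_toFinset, mem_roots hg0, IsRoot, hg, eval_map, ← aeval_def, hz]
  rw [← heq] at hzr
  obtain ⟨i, -, rfl⟩ := mem_image.1 hzr
  refine ⟨Complex.ofReal_im _, ?_, ?_⟩
  · exact (hx _ i.isLt).1.trans (by simpa using (hy i).1.le)
  · exact le_trans (by simpa using (hy i).2.le) (hx _ i.isLt.le).2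

/-- A monic integral polynomial swinging beyond `±2`. -/
theorem exists_swinging {c r : ℚ} (hr : 1 < r) :
    ∃ M : ℕ, 0 < M ∧ ∃ P : ℤ[X], P.Monic ∧ P.natDegree = M ∧
      ∀ i ≤ M, 2 < (-1 : ℝ) ^ i *
        aeval ((c : ℝ) + 2 * r * Real.cos (Real.pi * i / M)) P := by
  have hr' : (1 : ℝ) < r := by exact_mod_cast hr
  obtain ⟨k, hk⟩ := pow_unbounded_of_one_lt (max 2 (1 / ((r : ℝ) - 1))) hr'
  obtain ⟨D, hD, htop⟩ := exists_top_integral_cheb (c := c)
    (pow_ne_zero 2 (zero_lt_one.trans hr).ne') k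
  obtain ⟨M, hM⟩ : ∃ M, M = D * (2 * k + 1) := ⟨_, rfl⟩
  have hkM : 2 * k < M := lt_of_lt_of_le (by omega) (hM ▸ Nat.le_mul_of_pos_left _ hD)
  obtain ⟨e, he⟩ : ∃ e : ℕ → ℚ[X],
      e = fun j => if j = 0 then 1 else scaledCheb c (r ^ 2) j := ⟨_, rfl⟩
  have hem : ∀ j, (e j).Monic := fun j => by
    simp only [he]
    split_ifs with h
    exacts [monic_one, monic_scaledCheb _ _ (Nat.pos_of_ne_zero h)]
  have hed : ∀ j, (e j).natDegree = j := fun j => by
    simp only [he]
    split_ifs with h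
    exacts [natDegree_one.trans h.symm, natDegree_scaledCheb _ _ (Nat.pos_of_ne_zero h)]
  obtain ⟨t, ht, hint⟩ := exists_rounding e hem hed (M - k) (scaledCheb c (r ^ 2) M)
    (htop M (hM ▸ dvd_mul_right D _) hkM)
  have hlow : (∑ j ∈ range (M - k), C (t j) * e j).natDegree <
      (scaledCheb c (r ^ 2) M).natDegree := by
    rw [natDegree_scaledCheb _ _ (by omega)]
    refine lt_of_le_of_lt (natDegree_sum_le_of_forall_le _ _ (n := M - 1) fun j hj => ?_)
      (by omega)
    exact (natDegree_C_mul_le _ _).trans ((hed j).trans_le (by have := mem_range.1 hj; omega))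
  obtain ⟨P, hP, hPd, hPmap⟩ := exists_int_monic
    ((monic_scaledCheb c (r ^ 2) (n := M) (by omega)).add_of_left (degree_lt_degree hlow)) hint
  refine ⟨M, by omega, P, hP, ?_, fun i hi => ?_⟩
  · rw [hPd, natDegree_add_eq_left_of_natDegree_lt hlow, natDegree_scaledCheb _ _ (by omega)]
  obtain ⟨θ, hθ⟩ : ∃ θ : ℝ, θ = Real.pi * i / M := ⟨_, rfl⟩
  have hM0 : (M : ℝ) ≠ 0 := Nat.cast_ne_zero.2 (by omega)
  have hev : ∀ n, aeval ((c : ℝ) + 2 * r * Real.cos θ) (scaledCheb c (r ^ 2) n) =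
      2 * (r : ℝ) ^ n * Real.cos (n * θ) := fun n => by
    rw [aeval_def, ← eval_map, map_scaledCheb, map_pow, eq_ratCast, eq_ratCast,
      eval_scaledCheb_cos]
  have hmain : aeval ((c : ℝ) + 2 * r * Real.cos θ) (scaledCheb c (r ^ 2) M) =
      2 * (r : ℝ) ^ M * (-1) ^ i := by
    rw [hev, hθ, show (M : ℝ) * (Real.pi * i / M) = i * Real.pi by field_simp,
      Real.cos_nat_mul_pi]
  have hterm : ∀ j, ‖aeval ((c : ℝ) + 2 * r * Real.cos θ) (C (t j) * e j)‖ ≤ (r : ℝ) ^ j := by
    intro j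
    rw [map_mul, aeval_C, eq_ratCast, norm_mul, Real.norm_eq_abs, ← Rat.cast_abs]
    have h1 : ((|t j| : ℚ) : ℝ) ≤ 1 / 2 := (Rat.cast_le.2 (ht j)).trans (by norm_num)
    simp only [he]
    split_ifs with h
    · subst h
      simp only [map_one, norm_one, mul_one, pow_zero]
      linarith
    · rw [hev]
      refine (mul_le_mul h1 (show ‖2 * (r : ℝ) ^ j * Real.cos (j * θ)‖ ≤ 2 * (r : ℝ) ^ j from ?_)
        (norm_nonneg _) (by norm_num)).trans (le_of_eq (by ring))
      rw [norm_mul, norm_mul, Real.norm_eq_abs, abs_two, norm_pow,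
        Real.norm_of_nonneg (by linarith)]
      exact mul_le_of_le_one_right (by positivity) (Real.abs_cos_le_one _)
  have hsum : ‖aeval ((c : ℝ) + 2 * r * Real.cos θ)
      (∑ j ∈ range (M - k), C (t j) * e j)‖ < (r : ℝ) ^ M := by
    rw [map_sum]
    refine ((norm_sum_le _ _).trans (sum_le_sum fun j _ => hterm j)).trans_lt ?_
    rw [geom_sum_eq hr'.ne', div_lt_iff₀ (by linarith)]
    have h1 : 1 / ((r : ℝ) - 1) < (r : ℝ) ^ k := (le_max_right _ _).trans_lt hk
    rw [div_lt_iff₀ (by linarith)] at h1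
    have h2 : (r : ℝ) ^ M = (r : ℝ) ^ k * (r : ℝ) ^ (M - k) := by
      rw [← pow_add, Nat.add_sub_cancel' (by omega)]
    have h3 : 0 < (r : ℝ) ^ (M - k) := pow_pos (by linarith) _
    nlinarith
  have hr2 : 2 < (r : ℝ) ^ M := ((le_max_left _ _).trans_lt hk).trans_le
    (pow_le_pow_right₀ hr'.le (by omega))
  have eP : aeval ((c : ℝ) + 2 * r * Real.cos θ) P = 2 * (r : ℝ) ^ M * (-1) ^ i +
      aeval ((c : ℝ) + 2 * r * Real.cos θ) (∑ j ∈ range (M - k), C (t j) * e j) := by
    rw [← hmain, ← map_add, ← hPmap, ← algebraMap_int_eq, aeval_map_algebraMap]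
  rw [← hθ, eP, Real.norm_eq_abs, abs_lt] at *
  rcases neg_one_pow_eq_or ℝ i with h | h <;> rw [h] <;> linarith

/-- The numbers of modulus one and their reciprocals. -/
theorem real_of_scaledCheb_eq_two {L : ℕ} (hL : 0 < L) {u : ℂ}
    (hu : (scaledCheb (0 : ℂ) 1 L).eval u = 2) :
    ∃ v : ℝ, u = (v : ℂ) ∧ v ∈ Set.Icc (-2) 2 := by
  obtain ⟨w, hw⟩ := IsAlgClosed.exists_root (X ^ 2 - C u * X + C 1 : ℂ[X]) (fun h => by
    have h' : (X ^ 2 - C u * X + C 1 : ℂ[X]).coeff 2 = 0 :=
      coeff_eq_zero_of_degree_lt (h ▸ by norm_num)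
    simp [coeff_X_pow, coeff_one] at h')
  simp only [IsRoot, eval_add, eval_sub, eval_pow, eval_X, eval_mul, eval_C] at hw
  have hw0 : w ≠ 0 := fun e => by simp [e] at hw
  have hue : u = 0 + w + 1 / w := by
    field_simp
    linear_combination -hw
  rw [hue, eval_scaledCheb 0 1 w hw0] at hu
  have hwL : w ^ L ≠ 0 := pow_ne_zero _ hw0
  have hw1 : w ^ L = 1 := by
    rw [div_pow, one_pow] at hu
    field_simp at hu
    have h : (w ^ L - 1) ^ 2 = 0 := by linear_combination hu
    exact sub_eq_zero.1 (pow_eq_zero_iff two_ne_zero |>.1 h)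
  have hn : ‖w‖ = 1 := Complex.norm_eq_one_of_pow_eq_one hw1 hL.ne'
  refine ⟨2 * w.re, ?_, ?_⟩
  · rw [hue, zero_add, one_div, Complex.inv_eq_conj hn, Complex.add_conj]
  · have h := (Complex.abs_re_le_norm w).trans hn.le
    rw [abs_le] at h
    exact ⟨by linarith [h.1], by linarith [h.2]⟩

/-- **Robinson's theorem.** -/
theorem infinite_interval {a b : ℝ} (hab : 4 < b - a) :
    {x : ℂ | IsIntegral ℤ x ∧ ∀ z ∈ (minpoly ℤ x).aroots ℂ,
      z.im = 0 ∧ a ≤ z.re ∧ z.re ≤ b}.Infinite := by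
  obtain ⟨c, hc1, hc2⟩ := exists_rat_btwn (show a + 2 < b - 2 by linarith)
  obtain ⟨r, hr1, hr2⟩ := exists_rat_btwn
    (show (1 : ℝ) < min (((c : ℝ) - a) / 2) ((b - c) / 2) from lt_min (by linarith) (by linarith))
  have hr : 1 < r := by exact_mod_cast hr1
  rw [lt_min_iff] at hr2
  obtain ⟨M, hM, P, hP, hPd, hswing⟩ := exists_swinging (c := c) hr
  have hreal : ∀ v : ℝ, v ∈ Set.Icc (-2) 2 → ∀ z : ℂ, aeval z P = (v : ℂ) →
      z.im = 0 ∧ a ≤ z.re ∧ z.re ≤ b := by
    intro v hv z hz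
    obtain ⟨f, hf⟩ : ∃ f : ℝ[X], f = P.map (Int.castRingHom ℝ) - C v := ⟨_, rfl⟩
    have hdeg : (C v).natDegree < (P.map (Int.castRingHom ℝ)).natDegree := by
      rw [natDegree_C, hP.natDegree_map, hPd]
      exact hM
    refine roots_real_of_sign_changes (f := f) (M := M) (x := fun i => (c : ℝ) + 2 * r *
      Real.cos (Real.pi * i / M)) (hf ▸ (hP.map _).sub_of_left (degree_lt_degree hdeg)) ?_
      (fun i _ => ?_) (fun i hi => ?_) (fun i hi => ?_) z ?_
    · rw [hf, natDegree_sub_eq_left_of_natDegree_lt hdeg, hP.natDegree_map, hPd]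
    · have h1 := Real.neg_one_le_cos (Real.pi * i / M)
      have h2 := Real.cos_le_one (Real.pi * i / M)
      constructor <;> nlinarith
    · have hM0 : (0 : ℝ) < M := by exact_mod_cast hM
      have hlt : Real.cos (Real.pi * (i + 1 : ℕ) / M) < Real.cos (Real.pi * i / M) := by
        refine Real.cos_lt_cos_of_nonneg_of_le_pi (by positivity) ?_ ?_
        · rw [div_le_iff₀ hM0]
          gcongr
          exact_mod_cast hi
        · gcongr
          omega
      nlinarith
    · rw [hf, eval_sub, eval_C, eval_map, ← algebraMap_int_eq, ← aeval_def]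
      have h := hswing i hi
      rcases neg_one_pow_eq_or ℝ i with e | e <;> rw [e] at h ⊢ <;> linarith [hv.1, hv.2]
    · rw [hf, map_sub, aeval_C, ← algebraMap_int_eq, aeval_map_algebraMap, hz,
        Complex.coe_algebraMap, sub_self]
  have hd' : 0 < (P.map (Int.castRingHom ℂ)).natDegree := by
    rw [hP.natDegree_map, hPd]
    exact hM
  choose f hf using fun l : ℕ => IsAlgClosed.exists_root
    (P.map (Int.castRingHom ℂ) - C ((2 * Real.cos (2 * Real.pi / (l + 2 : ℕ)) : ℝ) : ℂ))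
    (fun h => by
      have h' := natDegree_eq_zero_iff_degree_le_zero.2 h.le
      rw [natDegree_sub_C] at h'
      omega)
  have hfa : ∀ l, aeval (f l) P =
      ((2 * Real.cos (2 * Real.pi / (l + 2 : ℕ)) : ℝ) : ℂ) := fun l => by
    have h := hf l
    rw [IsRoot, eval_sub, eval_C, sub_eq_zero, eval_map, ← algebraMap_int_eq, ← aeval_def] at h
    exact h
  refine Set.infinite_of_injective_forall_mem (f := f) (fun i j h => ?_) fun l => ?_
  · have hmem : ∀ k : ℕ, 2 * Real.pi / (k + 2 : ℕ) ∈ Set.Icc 0 Real.pi := fun k => by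
      refine ⟨by positivity, (div_le_iff₀ (by positivity)).2 ?_⟩
      push_cast
      nlinarith [Real.pi_pos, (Nat.cast_nonneg k : (0 : ℝ) ≤ (k : ℝ))]
    have h' := Real.injOn_cos (hmem i) (hmem j) (by
      have h1 := hfa i
      rw [h, hfa j] at h1
      have := Complex.ofReal_injective h1
      linarith)
    rw [div_eq_div_iff (by positivity) (by positivity)] at h'
    have h'' := Nat.cast_injective (mul_left_cancel₀ (mul_ne_zero two_ne_zero Real.pi_ne_zero) h')
    omega
  obtain ⟨G, hG⟩ : ∃ G : ℤ[X], G = scaledCheb 0 1 (l + 2) - 2 := ⟨_, rfl⟩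
  have hGd : (2 : ℤ[X]).natDegree < (scaledCheb (0 : ℤ) 1 (l + 2)).natDegree := by
    rw [natDegree_scaledCheb _ _ (by omega), show (2 : ℤ[X]) = C 2 by rfl, natDegree_C]
    omega
  have hGm : (G.comp P).Monic := by
    refine Monic.comp ?_ hP (by omega)
    exact hG ▸ (monic_scaledCheb _ _ (by omega)).sub_of_left (degree_lt_degree hGd)
  have haeval : ∀ z : ℂ, aeval z (G.comp P) =
      (scaledCheb (0 : ℂ) 1 (l + 2)).eval (aeval z P) - 2 := fun z => by
    rw [aeval_comp, hG, map_sub, map_ofNat, aeval_def (aeval z P), ← eval_map, map_scaledCheb,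
      map_zero, map_one]
  have hroot : aeval (f l) (G.comp P) = 0 := by
    rw [haeval, hfa, sub_eq_zero]
    obtain ⟨t, ht⟩ : ∃ t : ℝ, t = 2 * Real.pi / (l + 2 : ℕ) := ⟨_, rfl⟩
    have h := eval_scaledCheb_cos 0 1 t (l + 2)
    rw [one_pow, one_pow, mul_one, zero_add, ht,
      show ((l + 2 : ℕ) : ℝ) * (2 * Real.pi / (l + 2 : ℕ)) = 2 * Real.pi by field_simp,
      Real.cos_two_pi, mul_one] at h
    have h' := congrArg (fun x : ℝ => algebraMap ℝ ℂ x) h
    simp only [← eval_map_apply, map_scaledCheb, map_zero, map_one, map_ofNat] at h'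
    simpa using h'
  have hint : IsIntegral ℤ (f l) := ⟨G.comp P, hGm, by rwa [← aeval_def]⟩
  refine ⟨hint, fun z hz => ?_⟩
  rw [mem_aroots] at hz
  obtain ⟨T, hT⟩ := minpoly.isIntegrallyClosed_dvd hint hroot
  have hzG : aeval z (G.comp P) = 0 := by rw [hT, map_mul, hz.2, zero_mul]
  rw [haeval, sub_eq_zero] at hzG
  obtain ⟨v, hv, hv2⟩ := real_of_scaledCheb_eq_two (by omega) hzG
  exact hreal v hv2 z hv

end FA.FeketeSzego
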